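import Mathlib
import Fermat.Prelude.Thm_IsAdicComplete_of_module_finite
import Fermat.Agent.CFT.Idele.Basic

/-!
# PROJECT C, slice C1c (semilocal units), part 1: finiteness of `intRing L q`

`Loc L q = L ⊗[ℚ] ℚ_q` for a number field `L` (helper11's model), `intRing L q` the integral closure
of `ℤ_q` in it.  By trace duality against the integral basis `b_i` of `𝓞 L`:

* `discr_mul_mem_span`: for `x ∈ intRing L q`, `discr L • x = ∑ i, z_i • b_i` with `z_i ∈ ℤ_q`.

Consequences: `intRing L q` is a finite `ℤ_q`-module, hence `q`-adically separated and complete,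
`q` lies in its Jacobson radical, and its quotients by powers of `q` are finite.
-/

set_option autoImplicit false

open scoped TensorProduct NumberField
open Fermat.Agent.CFT.Idele

noncomputable section

namespace Fermat.Agent.CFT.Semilocal

/-! ### Coordinates and the trace on `L ⊗ ℚ_q` -/

section Coordinates

variable (L : Type*) [Field L] [Algebra ℚ L] (q : Nat.Primes)
variable {ι : Type*} (b : Module.Basis ι ℚ L)

/-- the `i`-th coordinate `L_q → ℚ_q` with respect to the `ℚ_q`-basis `b_i ⊗ 1` -/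
def coordQ (i : ι) : Loc L q →ₗ[ℚ] ℚ_[(q : ℕ)] :=
  (TensorProduct.lid ℚ ℚ_[(q : ℕ)]).toLinearMap ∘ₗ LinearMap.rTensor ℚ_[(q : ℕ)] (b.coord i)

theorem coordQ_tmul (i : ι) (a : L) (c : ℚ_[(q : ℕ)]) :
    coordQ L q b i (a ⊗ₜ[ℚ] c) = b.repr a i • c := by
  simp [coordQ]

theorem eq_sum_coordQ [Fintype ι] (x : Loc L q) :
    x = ∑ i, inclL L q (b i) * inclQ L q (coordQ L q b i x) := by
  induction x using TensorProduct.induction_on with
  | zero => simp
  | tmul a c =>
    have h1 : ∀ i, inclL L q (b i) * inclQ L q (coordQ L q b i (a ⊗ₜ[ℚ] c)) =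
        (b.repr a i • b i) ⊗ₜ[ℚ] c := by
      intro i
      rw [coordQ_tmul, inclL_apply, inclQ_apply, Algebra.TensorProduct.tmul_mul_tmul, mul_one,
        one_mul, TensorProduct.smul_tmul]
    rw [Finset.sum_congr rfl fun i _ => h1 i, ← TensorProduct.sum_tmul, b.sum_repr]
  | add x y hx hy =>
    conv_lhs => rw [hx, hy]
    rw [← Finset.sum_add_distrib]
    refine Finset.sum_congr rfl fun i _ => ?_
    rw [map_add, map_add, mul_add]

/-- the trace `L_q → ℚ_q` -/
def trQ : Loc L q →ₗ[ℚ] ℚ_[(q : ℕ)] :=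
  (TensorProduct.lid ℚ ℚ_[(q : ℕ)]).toLinearMap ∘ₗ
    LinearMap.rTensor ℚ_[(q : ℕ)] (Algebra.trace ℚ L)

theorem trQ_tmul (a : L) (c : ℚ_[(q : ℕ)]) :
    trQ L q (a ⊗ₜ[ℚ] c) = Algebra.trace ℚ L a • c := by
  simp [trQ]

theorem trQ_inclL_mul_inclQ (a : L) (c : ℚ_[(q : ℕ)]) :
    trQ L q (inclL L q a * inclQ L q c) = Algebra.trace ℚ L a • c := by
  rw [inclL_apply, inclQ_apply, Algebra.TensorProduct.tmul_mul_tmul, mul_one, one_mul, trQ_tmul]

end Coordinates

/-! ### The trace as a sum over embeddings; integrality of the trace -/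

section Embeddings

variable (L : Type*) [Field L] [Algebra ℚ L] (q : Nat.Primes)

/-- an algebraically closed field containing `ℚ_q` -/
abbrev Eq : Type := AlgebraicClosure ℚ_[(q : ℕ)]

/-- the structure map `ℤ_q → E_q` -/
def jE : ℤ_[(q : ℕ)] →+* Eq q := (algebraMap ℚ_[(q : ℕ)] (Eq q)).comp PadicInt.Coe.ringHom

/-- the extension of an embedding `L → E_q` to `L_q` -/
def extE (τ : L →ₐ[ℚ] Eq q) : Loc L q →ₐ[ℚ] Eq q :=
  Algebra.TensorProduct.productMap τ (IsScalarTower.toAlgHom ℚ ℚ_[(q : ℕ)] (Eq q))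

theorem extE_tmul (τ : L →ₐ[ℚ] Eq q) (a : L) (c : ℚ_[(q : ℕ)]) :
    extE L q τ (a ⊗ₜ[ℚ] c) = τ a * algebraMap ℚ_[(q : ℕ)] (Eq q) c := by
  simp [extE]

theorem extE_comp_inclZ (τ : L →ₐ[ℚ] Eq q) :
    ((extE L q τ : Loc L q →+* Eq q)).comp (inclZ L q) = jE q := by
  ext c
  show extE L q τ (inclZ L q c) = _
  rw [inclZ_apply, extE_tmul, map_one, one_mul]
  rfl

variable [FiniteDimensional ℚ L]

/-- the trace is the sum of the embeddings -/
theorem algebraMap_trQ (x : Loc L q) :
    algebraMap ℚ_[(q : ℕ)] (Eq q) (trQ L q x) = ∑ τ : L →ₐ[ℚ] Eq q, extE L q τ x := by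
  induction x using TensorProduct.induction_on with
  | zero => simp
  | tmul a c =>
    rw [trQ_tmul, Finset.sum_congr rfl fun τ _ => extE_tmul L q τ a c, ← Finset.sum_mul,
      ← trace_eq_sum_embeddings (Eq q) (K := ℚ) (L := L), Algebra.smul_def, map_mul,
      ← IsScalarTower.algebraMap_apply]
  | add x y hx hy =>
    rw [map_add, map_add, hx, hy, ← Finset.sum_add_distrib]
    exact Finset.sum_congr rfl fun τ _ => (map_add _ _ _).symm

/-- the trace of an integral element is in `ℤ_q` -/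
theorem trQ_mem_of_mem_intRing {x : Loc L q} (hx : x ∈ intRing L q) :
    ∃ z : ℤ_[(q : ℕ)], (z : ℚ_[(q : ℕ)]) = trQ L q x := by
  have h1 : ∀ τ : L →ₐ[ℚ] Eq q, (jE q).IsIntegralElem (extE L q τ x) := by
    intro τ
    have := RingHom.IsIntegralElem.map ((mem_intRing L q).mp hx) (extE L q τ : Loc L q →+* Eq q)
    rwa [extE_comp_inclZ] at this
  have h2 : (jE q).IsIntegralElem (∑ τ : L →ₐ[ℚ] Eq q, extE L q τ x) := by
    classical
    refine Finset.sum_induction _ (jE q).IsIntegralElem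
      (fun a b ha hb => RingHom.IsIntegralElem.add _ ha hb) (RingHom.isIntegralElem_zero _)
      fun τ _ => h1 τ
  rw [← algebraMap_trQ] at h2
  have h3 : (PadicInt.Coe.ringHom (p := (q : ℕ))).IsIntegralElem (trQ L q x) :=
    RingHom.IsIntegralElem.of_map (g := algebraMap ℚ_[(q : ℕ)] (Eq q))
      (algebraMap ℚ_[(q : ℕ)] (Eq q)).injective h2
  have h4 : IsIntegral ℤ_[(q : ℕ)] (trQ L q x) := h3
  obtain ⟨z, hz⟩ := IsIntegrallyClosed.isIntegral_iff.mp h4
  exact ⟨z, hz⟩

end Embeddings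

/-! ### Trace duality against the integral basis -/

section Discr

open NumberField

variable (L : Type*) [Field L] [NumberField L] (q : Nat.Primes)

/-- the integer trace matrix of the integral basis -/
def trZ : Matrix (Module.Free.ChooseBasisIndex ℤ (𝓞 L)) (Module.Free.ChooseBasisIndex ℤ (𝓞 L)) ℤ :=
  Algebra.traceMatrix ℤ (RingOfIntegers.basis L)

theorem det_trZ : (trZ L).det = discr L := by
  rw [NumberField.discr, Algebra.discr_def, trZ]

theorem trace_integralBasis_mul (i j : Module.Free.ChooseBasisIndex ℤ (𝓞 L)) :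
    Algebra.trace ℚ L (integralBasis L i * integralBasis L j) = (trZ L i j : ℚ) := by
  rw [integralBasis_apply, integralBasis_apply, ← map_mul,
    Algebra.trace_localization ℤ (nonZeroDivisors ℤ), trZ, Algebra.traceMatrix_apply,
    Algebra.traceForm_apply]
  rfl

theorem isIntegral_integralBasis (i : Module.Free.ChooseBasisIndex ℤ (𝓞 L)) :
    IsIntegral ℤ (integralBasis L i) := by
  rw [integralBasis_apply]
  exact RingOfIntegers.isIntegral_coe _

/-- **Trace duality**: `discr L • intRing L q ⊆ ∑ ℤ_q • b_i`. -/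
theorem discr_mul_eq_sum {x : Loc L q} (hx : x ∈ intRing L q) :
    ∃ z : Module.Free.ChooseBasisIndex ℤ (𝓞 L) → ℤ_[(q : ℕ)],
      inclL L q ((discr L : ℤ) : L) * x =
        ∑ i, inclZ L q (z i) * inclL L q (integralBasis L i) := by
  classical
  set b := integralBasis L with hb
  set c : Module.Free.ChooseBasisIndex ℤ (𝓞 L) → ℚ_[(q : ℕ)] := fun i => coordQ L q b i x with hc
  have hxc : x = ∑ i, inclL L q (b i) * inclQ L q (c i) := eq_sum_coordQ L q b x
  -- the traces `Tr(x b_j)` are in `ℤ_q`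
  have h1 : ∀ j, ∃ z : ℤ_[(q : ℕ)], (z : ℚ_[(q : ℕ)]) = ∑ i, ((trZ L i j : ℤ) : ℚ_[(q : ℕ)]) * c i := by
    intro j
    have hmem : x * inclL L q (b j) ∈ intRing L q :=
      (intRing L q).mul_mem hx (inclL_mem_intRing_of_isIntegral L q (isIntegral_integralBasis L j))
    obtain ⟨z, hz⟩ := trQ_mem_of_mem_intRing L q hmem
    refine ⟨z, ?_⟩
    rw [hz]
    conv_lhs => rw [hxc, Finset.sum_mul, map_sum]
    refine Finset.sum_congr rfl fun i _ => ?_
    have e : inclL L q (b i) * inclQ L q (c i) * inclL L q (b j) =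
        inclL L q (b i * b j) * inclQ L q (c i) := by
      rw [map_mul]; ring
    rw [e, trQ_inclL_mul_inclQ, trace_integralBasis_mul, Algebra.smul_def]
    congr 1
  choose z' hz' using h1
  -- invert the trace matrix
  have hadj : ∀ i k, ∑ j, (trZ L i j) * ((trZ L).adjugate j k) =
      if i = k then discr L else 0 := by
    intro i k
    have := congrFun (congrFun (Matrix.mul_adjugate (trZ L)) i) k
    rw [Matrix.mul_apply, det_trZ, Matrix.smul_apply, Matrix.one_apply] at this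
    rw [this]
    by_cases hik : i = k
    · simp [hik]
    · simp [hik]
  have h2 : ∀ k, ((discr L : ℤ) : ℚ_[(q : ℕ)]) * c k =
      ((∑ j, z' j * (((trZ L).adjugate j k : ℤ) : ℤ_[(q : ℕ)]) : ℤ_[(q : ℕ)]) : ℚ_[(q : ℕ)]) := by
    intro k
    rw [PadicInt.coe_sum]
    have e0 : ∀ j, ((z' j * (((trZ L).adjugate j k : ℤ) : ℤ_[(q : ℕ)]) : ℤ_[(q : ℕ)]) :
        ℚ_[(q : ℕ)]) = ∑ i, ((trZ L i j : ℤ) : ℚ_[(q : ℕ)]) * c i *
          (((trZ L).adjugate j k : ℤ) : ℚ_[(q : ℕ)]) := by
      intro j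
      rw [PadicInt.coe_mul, PadicInt.coe_intCast, hz' j, Finset.sum_mul]
    rw [Finset.sum_congr rfl fun j _ => e0 j, Finset.sum_comm]
    have : ∀ i, ∑ j, ((trZ L i j : ℤ) : ℚ_[(q : ℕ)]) * c i *
        (((trZ L).adjugate j k : ℤ) : ℚ_[(q : ℕ)]) =
        ((if i = k then discr L else 0 : ℤ) : ℚ_[(q : ℕ)]) * c i := by
      intro i
      rw [← hadj i k]
      push_cast
      rw [Finset.sum_mul]
      refine Finset.sum_congr rfl fun j _ => by ring
    rw [Finset.sum_congr rfl fun i _ => this i]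
    simp
  refine ⟨fun k => ∑ j, z' j * (((trZ L).adjugate j k : ℤ) : ℤ_[(q : ℕ)]), ?_⟩
  have e1 : inclL L q ((discr L : ℤ) : L) = inclQ L q ((discr L : ℤ) : ℚ_[(q : ℕ)]) := by
    rw [map_intCast, map_intCast]
  conv_lhs => rw [hxc, Finset.mul_sum]
  refine Finset.sum_congr rfl fun k _ => ?_
  have e2 : inclZ L q (∑ j, z' j * (((trZ L).adjugate j k : ℤ) : ℤ_[(q : ℕ)])) =
      inclQ L q (((discr L : ℤ) : ℚ_[(q : ℕ)]) * c k) := by
    rw [h2 k]
    rfl
  rw [e2, e1, map_mul]
  ring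

end Discr

/-! ### `intRing L q` as a finite `ℤ_q`-algebra -/

section Module

open NumberField

variable (L : Type*) [Field L] [Algebra ℚ L] (q : Nat.Primes)

/-- `ℤ_q → intRing L q` -/
def toIntRing : ℤ_[(q : ℕ)] →+* intRing L q :=
  (inclZ L q).codRestrict (intRing L q) (inclZ_mem_intRing L q)

theorem coe_toIntRing (c : ℤ_[(q : ℕ)]) : ((toIntRing L q c : intRing L q) : Loc L q) = inclZ L q c :=
  rfl

/-- the `ℤ_q`-algebra structure of `intRing L q` (scoped) -/
scoped instance algebraIntRing : Algebra ℤ_[(q : ℕ)] (intRing L q) := (toIntRing L q).toAlgebra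

theorem algebraMap_intRing_apply (c : ℤ_[(q : ℕ)]) :
    ((algebraMap ℤ_[(q : ℕ)] (intRing L q) c : intRing L q) : Loc L q) = inclZ L q c := rfl

theorem coe_smul_intRing (c : ℤ_[(q : ℕ)]) (x : intRing L q) :
    ((c • x : intRing L q) : Loc L q) = inclZ L q c * (x : Loc L q) := by
  rw [Algebra.smul_def]
  rfl

/-- nonzero integers are invertible in `L_q` -/
theorem isUnit_inclZ_intCast {m : ℤ} (hm : m ≠ 0) : IsUnit (inclZ L q (m : ℤ_[(q : ℕ)])) := by
  have h1 : inclZ L q (m : ℤ_[(q : ℕ)]) = algebraMap ℚ (Loc L q) (m : ℚ) := by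
    rw [map_intCast, map_intCast]
  rw [h1]
  exact (isUnit_iff_ne_zero.mpr (Int.cast_ne_zero.mpr hm)).map _

end Module

section Finite

open NumberField

variable (L : Type*) [Field L] [NumberField L] (q : Nat.Primes)

/-- the integral basis inside `intRing L q` -/
def basisIntRing (i : Module.Free.ChooseBasisIndex ℤ (𝓞 L)) : intRing L q :=
  ⟨inclL L q (integralBasis L i),
    inclL_mem_intRing_of_isIntegral L q (isIntegral_integralBasis L i)⟩

/-- `discr L • x` is a `ℤ_q`-combination of the integral basis -/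
theorem discr_smul_eq_sum (x : intRing L q) :
    ∃ z : Module.Free.ChooseBasisIndex ℤ (𝓞 L) → ℤ_[(q : ℕ)],
      ((discr L : ℤ) : ℤ_[(q : ℕ)]) • x = ∑ i, z i • basisIntRing L q i := by
  obtain ⟨z, hz⟩ := discr_mul_eq_sum L q x.2
  refine ⟨z, Subtype.ext ?_⟩
  rw [coe_smul_intRing, AddSubmonoidClass.coe_finsetSum]
  have e1 : inclZ L q ((discr L : ℤ) : ℤ_[(q : ℕ)]) = inclL L q ((discr L : ℤ) : L) := by
    rw [map_intCast, map_intCast]
  rw [e1, hz]
  refine Finset.sum_congr rfl fun i _ => ?_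
  rw [coe_smul_intRing]
  rfl

/-- **`intRing L q` is a finite `ℤ_q`-module.** -/
theorem finite_intRing : Module.Finite ℤ_[(q : ℕ)] (intRing L q) := by
  classical
  set Λ : Submodule ℤ_[(q : ℕ)] (intRing L q) :=
    Submodule.span ℤ_[(q : ℕ)] (Set.range (basisIntRing L q)) with hΛ
  have hN : IsNoetherian ℤ_[(q : ℕ)] Λ :=
    isNoetherian_span_of_finite _ (Set.finite_range (basisIntRing L q))
  have hmem : ∀ x : intRing L q,
      (LinearMap.lsmul ℤ_[(q : ℕ)] (intRing L q) ((discr L : ℤ) : ℤ_[(q : ℕ)])) x ∈ Λ := by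
    intro x
    obtain ⟨z, hz⟩ := discr_smul_eq_sum L q x
    rw [LinearMap.lsmul_apply, hz]
    exact Submodule.sum_mem _ fun i _ =>
      Submodule.smul_mem _ _ (Submodule.subset_span ⟨i, rfl⟩)
  set f : intRing L q →ₗ[ℤ_[(q : ℕ)]] Λ :=
    LinearMap.codRestrict Λ
      (LinearMap.lsmul ℤ_[(q : ℕ)] (intRing L q) ((discr L : ℤ) : ℤ_[(q : ℕ)])) hmem with hf
  have hinj : Function.Injective f := by
    rw [injective_iff_map_eq_zero]
    intro x hx
    have h1 : ((discr L : ℤ) : ℤ_[(q : ℕ)]) • x = 0 := by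
      have := congrArg Subtype.val hx
      rw [hf, LinearMap.codRestrict_apply, LinearMap.lsmul_apply] at this
      exact this
    have h2 := congrArg Subtype.val h1
    rw [coe_smul_intRing, ZeroMemClass.coe_zero] at h2
    have h3 := (isUnit_inclZ_intCast L q (discr_ne_zero L)).mul_right_eq_zero.mp h2
    exact Subtype.ext h3
  have := isNoetherian_of_injective f hinj
  exact Module.IsNoetherian.finite _ _

end Finite

/-! ### `q`-adic completeness, the Jacobson radical, finite quotients -/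

section Complete

open NumberField

variable (L : Type*) [Field L] [NumberField L] (q : Nat.Primes)

/-- the prime `q` as an element of `intRing L q` -/
def qInt : intRing L q := algebraMap ℤ_[(q : ℕ)] (intRing L q) ((q : ℕ) : ℤ_[(q : ℕ)])

theorem coe_qInt : ((qInt L q : intRing L q) : Loc L q) = ((q : ℕ) : Loc L q) := by
  rw [qInt, algebraMap_intRing_apply, map_natCast]

theorem qInt_pow_mul (m : ℕ) (r : intRing L q) :
    qInt L q ^ m * r = (((q : ℕ) : ℤ_[(q : ℕ)]) ^ m) • r := by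
  rw [Algebra.smul_def, map_pow]
  rfl

theorem mem_span_pow_smul_top_iff (m : ℕ) (r : intRing L q) :
    r ∈ ((Ideal.span {((q : ℕ) : ℤ_[(q : ℕ)])}) ^ m • ⊤ : Submodule ℤ_[(q : ℕ)] (intRing L q)) ↔
      ∃ r', r = qInt L q ^ m * r' := by
  rw [Ideal.span_singleton_pow, Submodule.ideal_span_singleton_smul,
    Submodule.mem_smul_pointwise_iff_exists]
  constructor
  · rintro ⟨b, -, hb⟩
    exact ⟨b, by rw [qInt_pow_mul, hb]⟩
  · rintro ⟨r', hr'⟩
    exact ⟨r', Submodule.mem_top, by rw [hr', qInt_pow_mul]⟩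

theorem isAdicComplete_intRing :
    IsAdicComplete (Ideal.span {((q : ℕ) : ℤ_[(q : ℕ)])}) (intRing L q) := by
  have : IsAdicComplete (Ideal.span {((q : ℕ) : ℤ_[(q : ℕ)])}) ℤ_[(q : ℕ)] := by
    rw [← PadicInt.maximalIdeal_eq_span_p]
    infer_instance
  have := finite_intRing L q
  exact IsAdicComplete.of_module_finite _ _

/-- `q`-adic separatedness of `intRing L q`, elementwise -/
theorem sep_intRing (r : intRing L q) (h : ∀ m : ℕ, ∃ r', r = qInt L q ^ m * r') : r = 0 := by
  have := isAdicComplete_intRing L q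
  apply IsHausdorff.haus (I := Ideal.span {((q : ℕ) : ℤ_[(q : ℕ)])}) inferInstance
  intro m
  rw [SModEq.sub_mem, sub_zero, mem_span_pow_smul_top_iff]
  exact h m

/-- `q`-adic completeness of `intRing L q`, elementwise -/
theorem compl_intRing (x : ℕ → intRing L q) :
    ∃ y, ∀ i : ℕ, ∃ r, y - ∑ j ∈ Finset.range i, qInt L q ^ j * x j = qInt L q ^ i * r := by
  have := isAdicComplete_intRing L q
  have hpre : IsPrecomplete (Ideal.span {((q : ℕ) : ℤ_[(q : ℕ)])}) (intRing L q) := inferInstance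
  obtain ⟨y, hy⟩ := hpre.prec (f := fun i => ∑ j ∈ Finset.range i, qInt L q ^ j * x j) (by
    intro m n hmn
    rw [SModEq.sub_mem, mem_span_pow_smul_top_iff]
    obtain ⟨d, rfl⟩ := Nat.exists_eq_add_of_le hmn
    refine ⟨-∑ j ∈ Finset.range d, qInt L q ^ j * x (m + j), ?_⟩
    rw [Finset.sum_range_add, mul_neg, Finset.mul_sum]
    rw [sub_add_cancel_left]
    congr 1
    exact Finset.sum_congr rfl fun j _ => by rw [pow_add, mul_assoc])
  refine ⟨y, fun i => ?_⟩
  have := hy i
  rw [SModEq.sub_mem, mem_span_pow_smul_top_iff] at this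
  obtain ⟨r, hr⟩ := this
  exact ⟨-r, by rw [mul_neg, ← hr]; ring⟩

/-- `q` lies in the Jacobson radical of `intRing L q` -/
theorem isUnit_one_add_qInt_mul (x : intRing L q) : IsUnit (1 + qInt L q * x) := by
  have := isAdicComplete_intRing L q
  have h1 : IsAdicComplete ((Ideal.span {((q : ℕ) : ℤ_[(q : ℕ)])}).map
      (algebraMap ℤ_[(q : ℕ)] (intRing L q))) (intRing L q) :=
    { toIsHausdorff := IsHausdorff.map_algebraMap_iff.mpr inferInstance
      toIsPrecomplete := IsPrecomplete.map_algebraMap_iff.mpr inferInstance }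
  have h2 := IsAdicComplete.le_jacobson_bot _ (Ideal.mem_map_of_mem (algebraMap ℤ_[(q : ℕ)]
    (intRing L q)) (Ideal.subset_span (Set.mem_singleton ((q : ℕ) : ℤ_[(q : ℕ)]))))
  have h3 := Ideal.mem_jacobson_bot.mp h2 x
  rw [add_comm]
  exact h3

/-- the quotients of `intRing L q` by powers of `q` are finite -/
theorem finite_quotient_qInt_pow (m : ℕ) :
    Finite (intRing L q ⧸ Ideal.span {qInt L q ^ m}) := by
  have := finite_intRing L q
  have : Finite (ℤ_[(q : ℕ)] ⧸ (Ideal.span {((q : ℕ) : ℤ_[(q : ℕ)])}) ^ m) := by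
    rw [Ideal.span_singleton_pow, ← PadicInt.ker_toZModPow]
    have : NeZero ((q : ℕ) ^ m) := ⟨pow_ne_zero _ q.2.ne_zero⟩
    exact Finite.of_injective _ (RingHom.kerLift_injective (PadicInt.toZModPow (p := (q : ℕ)) m))
  have : Finite ((intRing L q) ⧸ (⊤ : Submodule ℤ_[(q : ℕ)] (intRing L q))) :=
    Finite.of_subsingleton
  have h1 : Finite ((intRing L q) ⧸ ((Ideal.span {((q : ℕ) : ℤ_[(q : ℕ)])}) ^ m • ⊤ :
      Submodule ℤ_[(q : ℕ)] (intRing L q))) :=
    Submodule.finite_quotient_smul _ Module.Finite.fg_top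
  -- compare the two quotients through their underlying additive groups
  have h2 : ((Ideal.span {((q : ℕ) : ℤ_[(q : ℕ)])}) ^ m • ⊤ :
      Submodule ℤ_[(q : ℕ)] (intRing L q)).toAddSubgroup =
      (Ideal.span {qInt L q ^ m} : Ideal (intRing L q)).toAddSubgroup := by
    ext r
    rw [Submodule.mem_toAddSubgroup, Submodule.mem_toAddSubgroup, mem_span_pow_smul_top_iff,
      Ideal.mem_span_singleton']
    constructor
    · rintro ⟨r', hr'⟩
      exact ⟨r', by rw [hr', mul_comm]⟩
    · rintro ⟨r', hr'⟩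
      exact ⟨r', by rw [← hr', mul_comm]⟩
  have h1' : Finite ((intRing L q) ⧸ ((Ideal.span {((q : ℕ) : ℤ_[(q : ℕ)])}) ^ m • ⊤ :
      Submodule ℤ_[(q : ℕ)] (intRing L q)).toAddSubgroup) := h1
  have h3 : Finite ((intRing L q) ⧸
      (Ideal.span {qInt L q ^ m} : Ideal (intRing L q)).toAddSubgroup) :=
    Finite.of_equiv _ (QuotientAddGroup.quotientAddEquivOfEq h2).toEquiv
  exact h3

end Complete

end Fermat.Agent.CFT.Semilocal
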