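import Mathlib
import Fermat.Agent.CFT.Local.CyclicVanish

/-!
# PROJECT C, slice C1c: transport and extension lemmas for cyclic Tate cohomology in index form

* transport of `IsDefined`, `hcyc`, `V0On`, `V1On` along an equivariant isomorphism;
* the extension lemma: vanishing of `Ĥ⁰`, `Ĥ¹` on a stable subgroup and on the quotient gives
  vanishing on the whole group.
-/

set_option autoImplicit false

namespace Fermat.Agent.CFT.Semilocal

open Fermat.Agent.CFT.Herbrand Fermat.Agent.CFT.Local.CyclicVanish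

section Transport

variable {A B : Type*} [AddCommGroup A] [AddCommGroup B]

theorem map_iterate_of_semiconj {F : Type*} [FunLike F A B] (e : F) (σ : A →+ A) (σ' : B →+ B)
    (h : ∀ a, e (σ a) = σ' (e a)) (j : ℕ) (a : A) : e (σ^[j] a) = σ'^[j] (e a) := by
  induction j with
  | zero => rfl
  | succ j ih => rw [Function.iterate_succ_apply', Function.iterate_succ_apply', h, ih]

theorem map_delta_of_semiconj (e : A →+ B) (σ : A →+ A) (σ' : B →+ B)
    (h : ∀ a, e (σ a) = σ' (e a)) (a : A) : e (delta σ a) = delta σ' (e a) := by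
  rw [delta_apply, delta_apply, map_sub, h]

theorem map_nrm_of_semiconj (e : A →+ B) (σ : A →+ A) (σ' : B →+ B)
    (h : ∀ a, e (σ a) = σ' (e a)) (n : ℕ) (a : A) : e (nrm σ n a) = nrm σ' n (e a) := by
  rw [nrm_apply, nrm_apply, map_sum]
  exact Finset.sum_congr rfl fun j _ => map_iterate_of_semiconj e σ σ' h j a

theorem isDefined_cyc_congr (e : A ≃+ B) (σ : A →+ A) (σ' : B →+ B)
    (h : ∀ a, e (σ a) = σ' (e a)) (n : ℕ) :
    IsDefined (delta σ) (nrm σ n) ↔ IsDefined (delta σ') (nrm σ' n) :=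
  isDefined_congr e _ _ _ _ (map_delta_of_semiconj e.toAddMonoidHom σ σ' h)
    (map_nrm_of_semiconj e.toAddMonoidHom σ σ' h n)

theorem hcyc_congr (e : A ≃+ B) (σ : A →+ A) (σ' : B →+ B)
    (h : ∀ a, e (σ a) = σ' (e a)) (n : ℕ) : hcyc σ n = hcyc σ' n :=
  herbrand_congr e _ _ _ _ (map_delta_of_semiconj e.toAddMonoidHom σ σ' h)
    (map_nrm_of_semiconj e.toAddMonoidHom σ σ' h n)

theorem v0On_top_congr (e : A ≃+ B) (σ : A →+ A) (σ' : B →+ B)
    (h : ∀ a, e (σ a) = σ' (e a)) (n : ℕ) (h0 : V0On σ n ⊤) : V0On σ' n ⊤ := by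
  intro b _ hb
  obtain ⟨a, rfl⟩ := e.surjective b
  have ha : σ a = a := e.injective (by rw [h, hb])
  obtain ⟨c, -, hc⟩ := h0 a trivial ha
  refine ⟨e c, trivial, ?_⟩
  have := map_nrm_of_semiconj e.toAddMonoidHom σ σ' h n c
  rw [hc] at this
  exact this.symm

theorem v1On_top_congr (e : A ≃+ B) (σ : A →+ A) (σ' : B →+ B)
    (h : ∀ a, e (σ a) = σ' (e a)) (n : ℕ) (h1 : V1On σ n ⊤) : V1On σ' n ⊤ := by
  intro b _ hb
  obtain ⟨a, rfl⟩ := e.surjective b
  have ha : nrm σ n a = 0 := e.injective (by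
    have := map_nrm_of_semiconj e.toAddMonoidHom σ σ' h n a
    rw [map_zero]
    exact this.trans hb)
  obtain ⟨c, -, hc⟩ := h1 a trivial ha
  exact ⟨e c, trivial, by rw [← h, ← map_sub, hc]⟩

end Transport

section Extension

variable {A C : Type*} [AddCommGroup A] [AddCommGroup C]

/-- **Extension lemma for `Ĥ⁰`.** -/
theorem v0On_top_of_extension (σ : A →+ A) (σ'' : C →+ C) (n : ℕ) (hσn : ∀ a, σ^[n] a = a)
    (A' : AddSubgroup A)
    (ψ : A →+ C) (hψ : Function.Surjective ψ) (hker : ∀ a, ψ a = 0 → a ∈ A')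
    (hσ : ∀ a, ψ (σ a) = σ'' (ψ a))
    (h0 : V0On σ n A') (h0'' : V0On σ'' n ⊤) : V0On σ n ⊤ := by
  intro a _ ha
  have h1 : σ'' (ψ a) = ψ a := by rw [← hσ, ha]
  obtain ⟨c, -, hc⟩ := h0'' (ψ a) trivial h1
  obtain ⟨b, rfl⟩ := hψ c
  have h2 : a - nrm σ n b ∈ A' := by
    apply hker
    rw [map_sub, map_nrm_of_semiconj ψ σ σ'' hσ, hc, sub_self]
  have h3 : σ (a - nrm σ n b) = a - nrm σ n b := by
    have := delta_nrm_eq_zero σ n hσn b
    rw [delta_apply, sub_eq_zero] at this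
    rw [map_sub, ha, this]
  obtain ⟨b', -, hb'⟩ := h0 _ h2 h3
  exact ⟨b + b', trivial, by rw [map_add, hb']; abel⟩

/-- **Extension lemma for `Ĥ¹`.** -/
theorem v1On_top_of_extension (σ : A →+ A) (σ'' : C →+ C) (n : ℕ) (hσn : ∀ a, σ^[n] a = a)
    (A' : AddSubgroup A)
    (ψ : A →+ C) (hψ : Function.Surjective ψ) (hker : ∀ a, ψ a = 0 → a ∈ A')
    (hσ : ∀ a, ψ (σ a) = σ'' (ψ a))
    (h1 : V1On σ n A') (h1'' : V1On σ'' n ⊤) : V1On σ n ⊤ := by
  intro a _ ha
  have e1 : nrm σ'' n (ψ a) = 0 := by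
    rw [← map_nrm_of_semiconj ψ σ σ'' hσ, ha, map_zero]
  obtain ⟨c, -, hc⟩ := h1'' (ψ a) trivial e1
  obtain ⟨b, rfl⟩ := hψ c
  have h2 : a - (σ b - b) ∈ A' := by
    apply hker
    rw [map_sub, map_sub, hσ, hc, sub_self]
  have h3 : nrm σ n (a - (σ b - b)) = 0 := by
    have := nrm_delta_eq_zero σ n hσn b
    rw [delta_apply] at this
    rw [map_sub, ha, this, sub_zero]
  obtain ⟨b', -, hb'⟩ := h1 _ h2 h3
  exact ⟨b + b', trivial, by rw [map_add]; rw [sub_eq_iff_eq_add] at hb'; rw [hb']; abel⟩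

end Extension

end Fermat.Agent.CFT.Semilocal
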