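import Mathlib
import Fermat.Agent.CFT.Semilocal.Finite
import Fermat.Agent.CFT.Local.NormalBasisLattice
import Fermat.Agent.CFT.Semilocal.Transport

/-!
# PROJECT C, slice C1c (semilocal units), part 2: `h(U_q(L)) = 1` for cyclic `L/K`

`L/K` a cyclic extension of number fields with generator `g` of order `k + 1`, `q` any rational
prime.  The ring `intRing L q` (integral closure of `ℤ_q` in `L ⊗ ℚ_q`, helper11's model) with the
automorphism induced by `g`, the element `q`, and the lattice spanned over `intRing K q` by the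
conjugates of an integral normal basis generator is a `NormalBasisData` in the sense of helper22;
hence the Herbrand quotient of its unit group is defined and equal to `1`.
-/

set_option autoImplicit false

open scoped TensorProduct NumberField
open Fermat.Agent.CFT.Idele Fermat.Agent.CFT.Local Fermat.Agent.CFT.Herbrand

noncomputable section

namespace Fermat.Agent.CFT.Semilocal

/-! ### Functoriality and automorphisms of `intRing` -/

section Maps

variable {K L : Type*} [Field K] [Field L] [Algebra ℚ K] [Algebra ℚ L] (q : Nat.Primes)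

/-- `intRing K q → intRing L q` induced by `f : K →ₐ[ℚ] L` -/
def mapInt (f : K →ₐ[ℚ] L) : intRing K q →+* intRing L q :=
  ((Loc.map q f : Loc K q →+* Loc L q).comp (intRing K q).subtype).codRestrict (intRing L q)
    (fun x => Loc.map_mem_intRing q f x.2)

theorem coe_mapInt (f : K →ₐ[ℚ] L) (x : intRing K q) :
    ((mapInt q f x : intRing L q) : Loc L q) = Loc.map q f (x : Loc K q) := rfl

/-- the endomorphism of `intRing L q` induced by an automorphism of `L` -/
def autInt (τ : L ≃ₐ[ℚ] L) : intRing L q →+* intRing L q :=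
  ((Loc.aut L q τ : Loc L q →+* Loc L q).comp (intRing L q).subtype).codRestrict (intRing L q)
    (fun x => Loc.aut_mem_intRing q τ x.2)

theorem coe_autInt (τ : L ≃ₐ[ℚ] L) (x : intRing L q) :
    ((autInt q τ x : intRing L q) : Loc L q) = Loc.aut L q τ (x : Loc L q) := rfl

theorem autInt_one (x : intRing L q) : autInt q (1 : L ≃ₐ[ℚ] L) x = x :=
  Subtype.ext (by rw [coe_autInt, Loc.aut_one]; rfl)

theorem autInt_mul (σ τ : L ≃ₐ[ℚ] L) (x : intRing L q) :
    autInt q (σ * τ) x = autInt q σ (autInt q τ x) :=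
  Subtype.ext (by rw [coe_autInt, Loc.aut_mul_apply]; rfl)

theorem autInt_iterate (τ : L ≃ₐ[ℚ] L) (j : ℕ) (x : intRing L q) :
    (autInt q τ)^[j] x = autInt q (τ ^ j) x := by
  induction j with
  | zero => rw [Function.iterate_zero, id, pow_zero, autInt_one]
  | succ j ih => rw [Function.iterate_succ_apply', ih, pow_succ', autInt_mul]

theorem autInt_mapInt (f : K →ₐ[ℚ] L) (τ : L ≃ₐ[ℚ] L) (hτ : ∀ a : K, τ (f a) = f a)
    (x : intRing K q) : autInt q τ (mapInt q f x) = mapInt q f x :=
  Subtype.ext (by rw [coe_autInt, coe_mapInt, Loc.aut_map_of_fixes q f τ hτ])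

theorem mapInt_smul (f : K →ₐ[ℚ] L) (z : ℤ_[(q : ℕ)]) (x : intRing K q) :
    mapInt q f (z • x) = z • mapInt q f x :=
  Subtype.ext (by
    rw [coe_mapInt, coe_smul_intRing, coe_smul_intRing, map_mul, Loc.map_inclZ, coe_mapInt])

theorem mapInt_qInt {K L : Type*} [Field K] [Field L] [NumberField K] [NumberField L]
    (f : K →ₐ[ℚ] L) : mapInt q f (qInt K q) = qInt L q :=
  Subtype.ext (by rw [coe_mapInt, coe_qInt, coe_qInt, map_natCast])

/-- `inclL a * x = a • x` for the left `L`-module structure of `L ⊗ ℚ_q` -/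
theorem inclL_mul_eq_smul (a : L) (x : Loc L q) : inclL L q a * x = a • x := by
  rw [Algebra.smul_def, Algebra.TensorProduct.algebraMap_apply]
  rfl

/-- linear independence over `K_q` of the image of a `K`-basis of `L` -/
theorem eq_zero_of_sum_map_mul_inclL [Algebra K L] [IsScalarTower ℚ K L]
    {ι : Type*} [Fintype ι] (B : Module.Basis ι K L)
    (a : ι → Loc K q)
    (h : ∑ j, Loc.map q (IsScalarTower.toAlgHom ℚ K L) (a j) * inclL L q (B j) = 0) :
    ∀ j, a j = 0 := by
  have key : ∀ i j, (Loc.basis (L := K) q).repr (a j) i = 0 := by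
    intro i
    have h1 := congrArg (fun x => (Loc.basis (L := L) q).repr x i) h
    simp only [map_sum, Finsupp.coe_finsetSum, Finset.sum_apply, map_zero,
      Finsupp.coe_zero, Pi.zero_apply] at h1
    have h2 : ∀ j, (Loc.basis (L := L) q).repr
        (Loc.map q (IsScalarTower.toAlgHom ℚ K L) (a j) * inclL L q (B j)) i =
        (Loc.basis (L := K) q).repr (a j) i • B j := by
      intro j
      rw [mul_comm, inclL_mul_eq_smul, map_smul, Finsupp.smul_apply, Loc.repr_map, smul_eq_mul,
        mul_comm, Algebra.smul_def]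
      rfl
    rw [Finset.sum_congr rfl fun j _ => h2 j] at h1
    exact fun j => Fintype.linearIndependent_iff.mp B.linearIndependent _ h1 j
  intro j
  apply (Loc.basis (L := K) q).repr.injective
  ext i
  rw [key i j]
  simp

end Maps

/-! ### Cyclic extensions: the integral normal basis -/

section Cyclic

open NumberField

variable {K L : Type*} [Field K] [Field L] [NumberField K] [NumberField L] [Algebra K L]
  [IsGalois K L] (g : L ≃ₐ[K] L) (k : ℕ)

omit [NumberField K] [NumberField L] [IsGalois K L] in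
/-- the powers of a generator of order `k + 1` enumerate the Galois group -/
theorem exists_equiv_of_generator (hk : orderOf g = k + 1)
    (hgen : ∀ τ : L ≃ₐ[K] L, τ ∈ Subgroup.zpowers g) :
    ∃ e : Fin (k + 1) ≃ (L ≃ₐ[K] L), ∀ j, e j = g ^ (j : ℕ) := by
  have hfin : IsOfFinOrder g := orderOf_pos_iff.mp (by rw [hk]; exact Nat.succ_pos k)
  have htop : Subgroup.zpowers g = ⊤ := (Subgroup.eq_top_iff' _).mpr hgen
  let e1 : Fin (k + 1) ≃ Fin (orderOf g) := finCongr hk.symm
  let e2 : Fin (orderOf g) ≃ Subgroup.zpowers g := finEquivZPowers hfin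
  let e3 : Subgroup.zpowers g ≃ (⊤ : Subgroup (L ≃ₐ[K] L)) := (MulEquiv.subgroupCongr htop).toEquiv
  let e4 : (⊤ : Subgroup (L ≃ₐ[K] L)) ≃ (L ≃ₐ[K] L) := Subgroup.topEquiv.toEquiv
  refine ⟨((e1.trans e2).trans e3).trans e4, fun j => ?_⟩
  simp [e1, e2, e3, e4, finEquivZPowers_apply]

/-- a normal basis `g^j θ` with `θ` an algebraic integer -/
theorem exists_integral_normalBasis (e : Fin (k + 1) ≃ (L ≃ₐ[K] L))
    (he : ∀ j, e j = g ^ (j : ℕ)) :
    ∃ (B : Module.Basis (Fin (k + 1)) K L) (θ : L), IsIntegral ℤ θ ∧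
      ∀ j, B j = (g ^ (j : ℕ)) θ := by
  set nb := IsGalois.normalBasis K L with hnb
  obtain ⟨m, hm0, hm⟩ := exists_integral_multiples ℤ ℚ ({nb 1} : Finset L)
  have hm1 : IsIntegral ℤ (m • nb 1) := hm _ (Finset.mem_singleton_self _)
  have hunit : ∀ _ : Fin (k + 1), IsUnit ((m : K)) := fun _ =>
    isUnit_iff_ne_zero.mpr (Int.cast_ne_zero.mpr hm0)
  refine ⟨(nb.reindex e.symm).isUnitSMul hunit, m • nb 1, hm1, fun j => ?_⟩
  rw [Module.Basis.isUnitSMul_apply, Module.Basis.reindex_apply, Equiv.symm_symm, he j,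
    IsGalois.normalBasis_apply, map_zsmul, Int.cast_smul_eq_zsmul]

end Cyclic

/-! ### The normal basis data of `intRing L q` over `intRing K q` -/

section Data

open NumberField

variable {K L : Type*} [Field K] [Field L] [NumberField K] [NumberField L] [Algebra K L]
  (q : Nat.Primes)

/-- `intRing L q` as an algebra over `intRing K q` (not an instance) -/
@[reducible] def algInt : Algebra (intRing K q) (intRing L q) :=
  (mapInt q (IsScalarTower.toAlgHom ℚ K L)).toAlgebra

attribute [local instance] algInt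

theorem algebraMap_algInt (x : intRing K q) :
    algebraMap (intRing K q) (intRing L q) x = mapInt q (IsScalarTower.toAlgHom ℚ K L) x := rfl

theorem smul_algInt (a : intRing K q) (x : intRing L q) :
    ((a • x : intRing L q) : Loc L q) =
      Loc.map q (IsScalarTower.toAlgHom ℚ K L) (a : Loc K q) * (x : Loc L q) := by
  rw [Algebra.smul_def]
  rfl

/-- the automorphism of `intRing L q` induced by `g ∈ Gal(L/K)`, as an `intRing K q`-algebra map -/
def sigmaInt (g : L ≃ₐ[K] L) : intRing L q →ₐ[intRing K q] intRing L q :=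
  { autInt q (g.restrictScalars ℚ) with
    commutes' := fun x =>
      autInt_mapInt q (IsScalarTower.toAlgHom ℚ K L) (g.restrictScalars ℚ)
        (fun a => g.commutes a) x }

theorem sigmaInt_apply (g : L ≃ₐ[K] L) (x : intRing L q) :
    sigmaInt q g x = autInt q (g.restrictScalars ℚ) x := rfl

theorem sigmaInt_iterate (g : L ≃ₐ[K] L) (j : ℕ) (x : intRing L q) :
    (sigmaInt q g)^[j] x = autInt q ((g ^ j).restrictScalars ℚ) x := by
  have h : ∀ j : ℕ, (g.restrictScalars ℚ) ^ j = (g ^ j).restrictScalars ℚ := by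
    intro j
    induction j with
    | zero => rfl
    | succ j ih => rw [pow_succ, pow_succ, ih]; rfl
  rw [← h]
  exact autInt_iterate q (g.restrictScalars ℚ) j x

/-- an integral element of `L` as an element of `intRing L q` -/
def intElem (a : L) (ha : IsIntegral ℤ a) : intRing L q :=
  ⟨inclL L q a, inclL_mem_intRing_of_isIntegral L q ha⟩

theorem coe_intElem (a : L) (ha : IsIntegral ℤ a) :
    ((intElem q a ha : intRing L q) : Loc L q) = inclL L q a := rfl

theorem coe_sigmaInt_iterate_intElem (g : L ≃ₐ[K] L) (j : ℕ) (a : L) (ha : IsIntegral ℤ a) :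
    (((sigmaInt q g)^[j] (intElem q a ha) : intRing L q) : Loc L q) = inclL L q ((g ^ j) a) := by
  rw [sigmaInt_iterate, coe_autInt, coe_intElem, Loc.aut_inclL]
  rfl

theorem smul_smul_algInt (z : ℤ_[(q : ℕ)]) (a : intRing K q) (x : intRing L q) :
    (z • a) • x = z • (a • x) := by
  rw [Algebra.smul_def, Algebra.smul_def (R := intRing K q), algebraMap_algInt, algebraMap_algInt,
    mapInt_smul, smul_mul_assoc]

variable (g : L ≃ₐ[K] L) (k : ℕ)

/-- the conductor of the normal basis lattice -/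
theorem exists_conductor (B : Module.Basis (Fin (k + 1)) K L) (θ : L) (hθ : IsIntegral ℤ θ)
    (hB : ∀ j, B j = (g ^ (j : ℕ)) θ) :
    ∃ c : ℕ, ∀ r : intRing L q, ∃ a : Fin (k + 1) → intRing K q,
      qInt L q ^ c * r = ∑ j, a j • (sigmaInt q g)^[(j : ℕ)] (intElem q θ hθ) := by
  classical
  set κ : Module.Free.ChooseBasisIndex ℤ (𝓞 L) → Fin (k + 1) → K :=
    fun i j => B.repr (integralBasis L i) j with hκ
  obtain ⟨m', hm'0, hm'⟩ := exists_integral_multiples ℤ ℚ
    (Finset.univ.image fun p : Module.Free.ChooseBasisIndex ℤ (𝓞 L) × Fin (k + 1) => κ p.1 p.2)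
  have hint : ∀ i j, IsIntegral ℤ (m' • κ i j) := fun i j =>
    hm' _ (Finset.mem_image.mpr ⟨(i, j), Finset.mem_univ _, rfl⟩)
  set aK : Module.Free.ChooseBasisIndex ℤ (𝓞 L) → Fin (k + 1) → intRing K q :=
    fun i j => intElem q (m' • κ i j) (hint i j) with haK
  -- the integral basis in terms of the normal basis lattice
  have h1 : ∀ i, ((m' : ℤ) : ℤ_[(q : ℕ)]) • basisIntRing L q i =
      ∑ j, aK i j • (sigmaInt q g)^[(j : ℕ)] (intElem q θ hθ) := by
    intro i
    apply Subtype.ext
    rw [coe_smul_intRing, AddSubmonoidClass.coe_finsetSum]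
    have e1 : ∀ j, ((aK i j • (sigmaInt q g)^[(j : ℕ)] (intElem q θ hθ) : intRing L q) :
        Loc L q) = inclL L q ((m' • κ i j) • B j) := by
      intro j
      rw [smul_algInt, coe_sigmaInt_iterate_intElem, ← hB j, haK, coe_intElem, Loc.map_inclL,
        ← map_mul, Algebra.smul_def (m' • κ i j) (B j)]
      rfl
    rw [Finset.sum_congr rfl fun j _ => e1 j, ← map_sum]
    have e2 : ∑ j, (m' • κ i j) • B j = m' • integralBasis L i := by
      rw [Finset.sum_congr rfl fun j _ => smul_assoc m' (κ i j) (B j), ← Finset.smul_sum]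
      congr 1
      exact B.sum_repr (integralBasis L i)
    rw [e2]
    show inclZ L q ((m' : ℤ) : ℤ_[(q : ℕ)]) * inclL L q (integralBasis L i) = _
    rw [map_intCast, zsmul_eq_mul, map_mul, map_intCast]
  -- the total denominator
  have hN0 : m' * discr L ≠ 0 := mul_ne_zero hm'0 (discr_ne_zero L)
  have hfm : FiniteMultiplicity (((q : ℕ) : ℤ)) (m' * discr L) :=
    Int.finiteMultiplicity_iff.mpr ⟨by
      rw [Int.natAbs_natCast]; exact q.2.one_lt.ne', hN0⟩
  obtain ⟨N', hN', hqN'⟩ := hfm.exists_eq_pow_mul_and_not_dvd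
  obtain ⟨u, hu⟩ := isUnit_intCast_padicInt q hqN'
  refine ⟨multiplicity (((q : ℕ) : ℤ)) (m' * discr L), fun r => ?_⟩
  obtain ⟨z, hz⟩ := discr_smul_eq_sum L q r
  refine ⟨fun j => ((u⁻¹ : (ℤ_[(q : ℕ)])ˣ) : ℤ_[(q : ℕ)]) • ∑ i, z i • aK i j, ?_⟩
  -- `N • r` in terms of the lattice
  have h2 : ((m' * discr L : ℤ) : ℤ_[(q : ℕ)]) • r =
      ∑ j, (∑ i, z i • aK i j) • (sigmaInt q g)^[(j : ℕ)] (intElem q θ hθ) := by
    rw [Int.cast_mul, mul_smul, hz, Finset.smul_sum]
    rw [Finset.sum_congr rfl fun i _ => by rw [smul_comm, h1 i, Finset.smul_sum]]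
    rw [Finset.sum_comm]
    refine Finset.sum_congr rfl fun j _ => ?_
    rw [Finset.sum_smul]
    exact Finset.sum_congr rfl fun i _ => (smul_smul_algInt q (z i) (aK i j) _).symm
  have h3 : ((m' * discr L : ℤ) : ℤ_[(q : ℕ)]) =
      (u : ℤ_[(q : ℕ)]) * ((q : ℕ) : ℤ_[(q : ℕ)]) ^
        multiplicity (((q : ℕ) : ℤ)) (m' * discr L) := by
    conv_lhs => rw [hN']
    rw [hu]
    push_cast
    ring
  rw [qInt_pow_mul]
  have h4 : (((q : ℕ) : ℤ_[(q : ℕ)]) ^ multiplicity (((q : ℕ) : ℤ)) (m' * discr L)) • r =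
      ((u⁻¹ : (ℤ_[(q : ℕ)])ˣ) : ℤ_[(q : ℕ)]) • (((m' * discr L : ℤ) : ℤ_[(q : ℕ)]) • r) := by
    rw [h3, mul_smul, smul_smul, Units.inv_mul, one_smul]
  rw [h4, h2, Finset.smul_sum]
  exact Finset.sum_congr rfl fun j _ => (smul_smul_algInt q _ _ _).symm

theorem algebraMap_qInt :
    algebraMap (intRing K q) (intRing L q) (qInt K q) = qInt L q :=
  mapInt_qInt q _

theorem qInt_mul_eq_zero (x : intRing L q) (h : qInt L q * x = 0) : x = 0 := by
  have h1 := congrArg Subtype.val h
  rw [Subring.coe_mul, coe_qInt, ZeroMemClass.coe_zero] at h1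
  have h2 : IsUnit (((q : ℕ) : Loc L q)) := by
    have : ((q : ℕ) : Loc L q) = algebraMap ℚ (Loc L q) ((q : ℕ) : ℚ) := by
      rw [map_natCast]
    rw [this]
    exact (isUnit_iff_ne_zero.mpr (Nat.cast_ne_zero.mpr q.2.ne_zero)).map _
  exact Subtype.ext (h2.mul_right_eq_zero.mp h1)

/-- **The normal basis data** of `intRing L q` over `intRing K q` for a cyclic extension `L/K`
with generator `g` of order `k + 1`. -/
theorem exists_normalBasisData [IsGalois K L] (hk : orderOf g = k + 1)
    (hgen : ∀ τ : L ≃ₐ[K] L, τ ∈ Subgroup.zpowers g) :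
    ∃ N : NormalBasisData (intRing K q) (intRing L q),
      N.σ = sigmaInt q g ∧ N.k = k ∧ N.ϖ = qInt K q := by
  obtain ⟨e, he⟩ := exists_equiv_of_generator g k hk hgen
  obtain ⟨B, θ, hθ, hB⟩ := exists_integral_normalBasis g k e he
  obtain ⟨c, hc⟩ := exists_conductor q g k B θ hθ hB
  have hgk : g ^ (k + 1) = 1 := by rw [← hk]; exact pow_orderOf_eq_one g
  refine ⟨{ σ := sigmaInt q g
            k := k
            hσ := ?_
            ϖ := qInt K q
            hε := ?_
            hunit := ?_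
            θ := intElem q θ hθ
            hli := ?_
            c := c
            hc := ?_
            sepR := ?_
            complR := ?_ }, rfl, rfl, rfl⟩
  · intro r
    rw [sigmaInt_iterate, hgk]
    exact autInt_one q r
  · intro x hx
    rw [algebraMap_qInt] at hx
    exact qInt_mul_eq_zero q x hx
  · intro x
    rw [algebraMap_qInt]
    exact isUnit_one_add_qInt_mul L q x
  · rw [Fintype.linearIndependent_iff]
    intro a ha j
    have h1 := congrArg Subtype.val ha
    rw [AddSubmonoidClass.coe_finsetSum, ZeroMemClass.coe_zero] at h1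
    have h2 : ∀ j : Fin (k + 1), ((a j • (sigmaInt q g)^[(j : ℕ)] (intElem q θ hθ) :
        intRing L q) : Loc L q) =
        Loc.map q (IsScalarTower.toAlgHom ℚ K L) (a j : Loc K q) * inclL L q (B j) := by
      intro j
      rw [smul_algInt, coe_sigmaInt_iterate_intElem, hB j]
    rw [Finset.sum_congr rfl fun j _ => h2 j] at h1
    exact Subtype.ext (eq_zero_of_sum_map_mul_inclL q B (fun j => (a j : Loc K q)) h1 j)
  · intro r
    rw [algebraMap_qInt]
    exact hc r
  · intro r hr
    rw [algebraMap_qInt] at hr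
    exact sep_intRing L q r hr
  · intro x
    rw [algebraMap_qInt]
    exact compl_intRing L q x

end Data

/-! ### The unit groups -/

section Units

variable {L : Type*} [Field L] [Algebra ℚ L] (q : Nat.Primes)

/-- the units of `intRing L q` are the subgroup `intUnits L q` of `(L ⊗ ℚ_q)ˣ` -/
def unitsEquiv : (intRing L q)ˣ ≃* intUnits L q where
  toFun u := ⟨Units.map ((intRing L q).subtype : intRing L q →* Loc L q) u,
    ⟨(u : intRing L q).2, ((u⁻¹ : (intRing L q)ˣ) : intRing L q).2⟩⟩
  invFun v := ⟨⟨(v : (Loc L q)ˣ), v.2.1⟩, ⟨((v : (Loc L q)ˣ)⁻¹ : (Loc L q)ˣ), v.2.2⟩,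
    Subtype.ext (by simp), Subtype.ext (by simp)⟩
  left_inv u := Units.ext (Subtype.ext rfl)
  right_inv v := Subtype.ext (Units.ext rfl)
  map_mul' _ _ := Subtype.ext (Units.ext rfl)

theorem coe_unitsEquiv (u : (intRing L q)ˣ) :
    (((unitsEquiv q u : intUnits L q) : (Loc L q)ˣ) : Loc L q) = ((u : intRing L q) : Loc L q) :=
  rfl

/-- the action of an automorphism of `L` on `intUnits L q` -/
def autUnits (τ : L ≃ₐ[ℚ] L) : intUnits L q →* intUnits L q where
  toFun v := ⟨Units.map ((Loc.aut L q τ : Loc L q →+* Loc L q) : Loc L q →* Loc L q) v,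
    ⟨Loc.aut_mem_intRing q τ v.2.1, Loc.aut_mem_intRing q τ v.2.2⟩⟩
  map_one' := Subtype.ext (map_one _)
  map_mul' _ _ := Subtype.ext (map_mul _ _ _)

theorem coe_autUnits (τ : L ≃ₐ[ℚ] L) (v : intUnits L q) :
    (((autUnits q τ v : intUnits L q) : (Loc L q)ˣ) : Loc L q) =
      Loc.aut L q τ ((v : (Loc L q)ˣ) : Loc L q) := rfl

theorem unitsEquiv_autInt (τ : L ≃ₐ[ℚ] L) (u : (intRing L q)ˣ) :
    unitsEquiv q (Units.map ((autInt q τ : intRing L q →+* intRing L q) :
      intRing L q →* intRing L q) u) = autUnits q τ (unitsEquiv q u) :=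
  Subtype.ext (Units.ext rfl)

end Units

section Final

open NumberField

variable {K L : Type*} [Field K] [Field L] [NumberField K] [NumberField L] [Algebra K L]
  (q : Nat.Primes) (g : L ≃ₐ[K] L) (k : ℕ)

/-- the action of `g` on `Additive (intRing L q)ˣ` -/
def sigmaR : Additive (intRing L q)ˣ →+ Additive (intRing L q)ˣ :=
  MonoidHom.toAdditive (Units.map ((autInt q (g.restrictScalars ℚ) :
    intRing L q →+* intRing L q) : intRing L q →* intRing L q))

/-- the action of `g` on `Additive (intUnits L q)` -/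
def sigmaU : Additive (intUnits L q) →+ Additive (intUnits L q) :=
  MonoidHom.toAdditive (autUnits q (g.restrictScalars ℚ))

theorem unitsEquiv_sigmaR (a : Additive (intRing L q)ˣ) :
    (MulEquiv.toAdditive (unitsEquiv (L := L) q)) (sigmaR q g a) =
      sigmaU q g ((MulEquiv.toAdditive (unitsEquiv (L := L) q)) a) :=
  congrArg Additive.ofMul (unitsEquiv_autInt q (g.restrictScalars ℚ) (Additive.toMul a))

attribute [local instance] algInt

/-- **`h(U_q(L)) = 1`**, for the units of `intRing L q`. -/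
theorem hcyc_sigmaR [IsGalois K L] (hk : orderOf g = k + 1)
    (hgen : ∀ τ : L ≃ₐ[K] L, τ ∈ Subgroup.zpowers g) :
    IsDefined (delta (sigmaR q g)) (nrm (sigmaR q g) (k + 1)) ∧ hcyc (sigmaR q g) (k + 1) = 1 := by
  obtain ⟨N, hσ, hk', hϖ⟩ := exists_normalBasisData q g k hk hgen
  have hε : N.toUnitLattice.ε = qInt L q := by
    show algebraMap (intRing K q) (intRing L q) N.ϖ = _
    rw [hϖ]
    exact algebraMap_qInt q
  have hfin : Finite (intRing L q ⧸
      Ideal.span {N.toUnitLattice.ε ^ (N.toUnitLattice.c + 1 + N.toUnitLattice.c)}) := by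
    rw [hε]
    exact finite_quotient_qInt_pow L q _
  have h := N.toUnitLattice.hcyc_units hfin
  have e1 : N.toUnitLattice.σA = sigmaR q g := by
    show MonoidHom.toAdditive (Units.map (((N.σ : intRing L q →+* intRing L q)) :
      intRing L q →* intRing L q)) = _
    rw [hσ]
    rfl
  have e2 : N.toUnitLattice.n = k + 1 := by
    show N.k + 1 = k + 1
    rw [hk']
  rw [e1, e2] at h
  exact h

/-- **`h(U_q(L)) = 1`**: for a cyclic extension `L/K` of number fields with generator `g` of order
`k + 1` and every rational prime `q`, the Herbrand quotient of `intUnits L q` (helper11's model of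
`∏_{w ∣ q} O_wˣ`) is defined and equal to `1`. -/
theorem hcyc_sigmaU [IsGalois K L] (hk : orderOf g = k + 1)
    (hgen : ∀ τ : L ≃ₐ[K] L, τ ∈ Subgroup.zpowers g) :
    IsDefined (delta (sigmaU q g)) (nrm (sigmaU q g) (k + 1)) ∧ hcyc (sigmaU q g) (k + 1) = 1 := by
  obtain ⟨h1, h2⟩ := hcyc_sigmaR q g k hk hgen
  exact ⟨(isDefined_cyc_congr (MulEquiv.toAdditive (unitsEquiv (L := L) q)) _ _
      (unitsEquiv_sigmaR q g) (k + 1)).mp h1,
    by rw [← hcyc_congr (MulEquiv.toAdditive (unitsEquiv (L := L) q)) _ _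
      (unitsEquiv_sigmaR q g) (k + 1), h2]⟩

end Final

end Fermat.Agent.CFT.Semilocal
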