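import Mathlib
import Fermat.Agent.CFT.Semilocal.Finite

/-!
# PROJECT C, slice C1c (semilocal units), part 4a: global Galois coordinates from the discriminant

For a number field `L` with integral basis `b_i`, integer trace matrix `T = (Tr b_i b_j)` and
`y_i := ∑_j adj(T)_{ij} b_j` (an algebraic integer, `= discr L • b_i^∨`):

  `∑ i, b_i * σ (y_i) = if σ = 1 then discr L else 0`   for every `σ : L ≃ₐ[ℚ] L`.

(`z ↦ ∑_i Tr(z y_i) b_i` is multiplication by `discr L`; expand the trace over the embeddings into
an algebraic closure and use the linear independence of the embeddings.)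
-/

set_option autoImplicit false

open scoped NumberField
open NumberField

noncomputable section

namespace Fermat.Agent.CFT.Semilocal

variable (L : Type*) [Field L] [NumberField L]

/-- `discr L` times the trace-dual of the integral basis -/
def dualInt (i : Module.Free.ChooseBasisIndex ℤ (𝓞 L)) : L :=
  ∑ j, ((trZ L).adjugate i j : ℤ) • integralBasis L j

theorem isIntegral_dualInt (i : Module.Free.ChooseBasisIndex ℤ (𝓞 L)) :
    IsIntegral ℤ (dualInt L i) :=
  IsIntegral.sum _ fun j _ => (isIntegral_integralBasis L j).smul _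

theorem trace_integralBasis_mul_dualInt (k i : Module.Free.ChooseBasisIndex ℤ (𝓞 L)) :
    Algebra.trace ℚ L (integralBasis L k * dualInt L i) =
      if i = k then (discr L : ℚ) else 0 := by
  classical
  have hadj : ∑ j, ((trZ L).adjugate i j) * (trZ L j k) = if i = k then discr L else 0 := by
    have := congrFun (congrFun (Matrix.adjugate_mul (trZ L)) i) k
    rw [Matrix.mul_apply, det_trZ, Matrix.smul_apply, Matrix.one_apply] at this
    rw [this]
    by_cases hik : i = k
    · simp [hik]
    · simp [hik]
  rw [dualInt, Finset.mul_sum, map_sum]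
  have h1 : ∀ j, Algebra.trace ℚ L (integralBasis L k * (((trZ L).adjugate i j : ℤ) •
      integralBasis L j)) = (((trZ L).adjugate i j * trZ L j k : ℤ) : ℚ) := by
    intro j
    rw [mul_smul_comm, map_zsmul, mul_comm (integralBasis L k), trace_integralBasis_mul]
    push_cast
    rw [zsmul_eq_mul]
  rw [Finset.sum_congr rfl fun j _ => h1 j, ← Int.cast_sum, hadj]
  split_ifs <;> simp

/-- `z ↦ ∑ i, Tr(z y_i) b_i` is multiplication by the discriminant -/
theorem sum_trace_mul_dualInt (z : L) :
    ∑ i, Algebra.trace ℚ L (z * dualInt L i) • integralBasis L i = (discr L : ℚ) • z := by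
  classical
  -- both sides are `ℚ`-linear in `z`; check on the basis
  have hlin : ∀ z : L, ∑ i, Algebra.trace ℚ L (z * dualInt L i) • integralBasis L i =
      (∑ i, (LinearMap.smulRight ((Algebra.trace ℚ L).comp
        (LinearMap.mulRight ℚ (dualInt L i))) (integralBasis L i) : L →ₗ[ℚ] L)) z := by
    intro z
    rw [LinearMap.sum_apply]
    rfl
  rw [hlin]
  have : (∑ i, (LinearMap.smulRight ((Algebra.trace ℚ L).comp
        (LinearMap.mulRight ℚ (dualInt L i))) (integralBasis L i) : L →ₗ[ℚ] L)) =
      (discr L : ℚ) • LinearMap.id := by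
    apply (integralBasis L).ext
    intro k
    rw [← hlin, LinearMap.smul_apply, LinearMap.id_apply]
    rw [Finset.sum_congr rfl fun i _ => by rw [trace_integralBasis_mul_dualInt]]
    rw [Finset.sum_eq_single k]
    · rw [if_pos rfl]
    · intro i _ hik
      rw [if_neg hik, zero_smul]
    · intro h
      exact absurd (Finset.mem_univ k) h
  rw [this, LinearMap.smul_apply, LinearMap.id_apply]

local notation "E" => AlgebraicClosure L

open scoped Classical in
/-- **Global Galois coordinates.** -/
theorem sum_integralBasis_mul_map_dualInt (σ : L ≃ₐ[ℚ] L) :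
    ∑ i, integralBasis L i * σ (dualInt L i) = if σ = 1 then ((discr L : ℤ) : L) else 0 := by
  set ι₀ : L →ₐ[ℚ] E := IsScalarTower.toAlgHom ℚ L E with hι₀
  -- the coefficients
  set e : (L →ₐ[ℚ] E) → E := fun τ => ∑ i, ι₀ (integralBasis L i) * τ (dualInt L i) with he
  -- the relation between the embeddings
  have hrel : ∀ z : L, ∑ τ : L →ₐ[ℚ] E, e τ * τ z = ((discr L : ℤ) : E) * ι₀ z := by
    intro z
    have h1 := congrArg ι₀ (sum_trace_mul_dualInt L z)
    rw [map_sum] at h1
    have h2 : ∀ i, ι₀ (Algebra.trace ℚ L (z * dualInt L i) • integralBasis L i) =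
        ∑ τ : L →ₐ[ℚ] E, ι₀ (integralBasis L i) * τ (dualInt L i) * τ z := by
      intro i
      rw [Algebra.smul_def, map_mul, AlgHom.commutes, trace_eq_sum_embeddings E, Finset.sum_mul]
      refine Finset.sum_congr rfl fun τ _ => ?_
      rw [map_mul]
      ring
    rw [Finset.sum_congr rfl fun i _ => h2 i, Finset.sum_comm] at h1
    rw [Finset.sum_congr rfl fun τ _ => by rw [he, Finset.sum_mul]]
    rw [h1, Algebra.smul_def, map_mul, AlgHom.commutes]
    congr 1
    simp
  -- linear independence of the embeddings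
  have hli := linearIndependent_algHom_toLinearMap ℚ L E
  have hzero : ∀ τ : L →ₐ[ℚ] E, e τ - (if τ = ι₀ then ((discr L : ℤ) : E) else 0) = 0 := by
    refine Fintype.linearIndependent_iff.mp hli _ ?_
    apply LinearMap.ext
    intro z
    rw [LinearMap.sum_apply, LinearMap.zero_apply]
    have h3 : ∀ τ : L →ₐ[ℚ] E, ((e τ - (if τ = ι₀ then ((discr L : ℤ) : E) else 0)) •
        (τ.toLinearMap : L →ₗ[ℚ] E)) z =
        e τ * τ z - (if τ = ι₀ then ((discr L : ℤ) : E) * ι₀ z else 0) := by
      intro τ
      rw [LinearMap.smul_apply, AlgHom.toLinearMap_apply, smul_eq_mul, sub_mul]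
      split_ifs with h
      · rw [h]
      · rw [zero_mul]
    rw [Finset.sum_congr rfl fun τ _ => h3 τ, Finset.sum_sub_distrib, hrel z,
      Finset.sum_ite_eq' Finset.univ ι₀, if_pos (Finset.mem_univ _), sub_self]
  -- specialise to `τ = ι₀ ∘ σ`
  have h4 := hzero (ι₀.comp (σ : L →ₐ[ℚ] L))
  have h5 : e (ι₀.comp (σ : L →ₐ[ℚ] L)) = ι₀ (∑ i, integralBasis L i * σ (dualInt L i)) := by
    rw [he, map_sum]
    exact Finset.sum_congr rfl fun i _ => by rw [map_mul]; rfl
  have h6 : (ι₀.comp (σ : L →ₐ[ℚ] L) = ι₀) ↔ σ = 1 := by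
    constructor
    · intro h
      ext z
      have := congrArg (fun f : L →ₐ[ℚ] E => f z) h
      exact ι₀.toRingHom.injective this
    · rintro rfl
      rfl
  rw [h5, sub_eq_zero] at h4
  apply ι₀.toRingHom.injective
  show ι₀ _ = ι₀ _
  rw [h4]
  by_cases hσ : σ = 1
  · rw [if_pos (h6.mpr hσ), if_pos hσ, map_intCast]
  · rw [if_neg (fun h => hσ (h6.mp h)), if_neg hσ, map_zero]

end Fermat.Agent.CFT.Semilocal
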