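import Mathlib
import Fermat.Agent.CFT.Semilocal.Transport
import Fermat.Agent.CFT.Local.NormIndex

/-!
# PROJECT C, slice C1c (semilocal units), part 3: Hilbert 90 for finite Galois ring extensions

`S` a finite commutative ring, `σ : S →+* S` with `σ^n = 1`, and *Galois coordinates*
`x_i, y_i ∈ S`: `∑ i, x_i * σ^j (y_i) = δ_{j,0}` for `0 ≤ j < n`  (think `S = O_L / q` for a cyclic
extension `L/K` of number fields unramified at `q`; no decomposition into residue fields is used).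

* `exists_isUnit_tw`: for a unit `u` of norm `1` some twisted trace
  `tw u c = ∑_{j<n} (∏_{i<j} σ^i u) σ^j c` is a unit; it satisfies `u * σ (tw u c) = tw u c`.
* `hilbert90`: `N u = 1 → ∃ b : Sˣ, σ b / b = u`.
* `exists_trace_one`: there is `t` with `∑_{j<n} σ^j t = 1`.
* `v1On_units`, `v0On_units`: `Ĥ¹ = Ĥ⁰ = 0` for `Sˣ` in the index vocabulary of `CFT/Herbrand.lean`.
-/

set_option autoImplicit false

open Finset

namespace Fermat.Agent.CFT.Semilocal.Hilbert90

open Fermat.Agent.CFT.Herbrand Fermat.Agent.CFT.Local.CyclicVanish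

/-! ### Idempotent powers in finite monoids -/

/-- in a finite monoid, some positive power of any element is idempotent -/
theorem exists_pow_idempotent {M : Type*} [Monoid M] [Finite M] (b : M) :
    ∃ m, 0 < m ∧ b ^ m * b ^ m = b ^ m := by
  obtain ⟨i, j, hij, h⟩ := Finite.exists_ne_map_eq_of_infinite (fun k : ℕ => b ^ (k + 1))
  wlog hlt : i < j generalizing i j
  · exact this j i (Ne.symm hij) h.symm (lt_of_le_of_ne (not_lt.mp hlt) (Ne.symm hij))
  obtain ⟨d, rfl⟩ := Nat.exists_eq_add_of_lt hlt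
  -- `b^(i+1) = b^(i+1+(d+1))`
  set a := i + 1 with ha
  set e := d + 1 with he
  have h1 : b ^ a = b ^ (a + e) := by
    have : i + d + 1 + 1 = a + e := by omega
    simpa [this] using h
  -- `b^(t + k e) = b^t` for `t ≥ a`
  have h2 : ∀ k t : ℕ, a ≤ t → b ^ (t + k * e) = b ^ t := by
    intro k
    induction k with
    | zero => intro t _; simp
    | succ k ih =>
      intro t ht
      obtain ⟨r, rfl⟩ := Nat.exists_eq_add_of_le ht
      have : a + r + (k + 1) * e = (a + e) + (r + k * e) := by ring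
      rw [this, pow_add, ← h1, ← pow_add]
      have : a + (r + k * e) = a + r + k * e := by ring
      rw [this]
      exact ih (a + r) ht
  refine ⟨a * e, Nat.mul_pos (Nat.succ_pos i) (Nat.succ_pos d), ?_⟩
  rw [← pow_add]
  have hae : a ≤ a * e := Nat.le_mul_of_pos_right a (Nat.succ_pos d)
  exact h2 a (a * e) hae

/-! ### Finding a unit in a twisted module -/

section UnitFinding

variable {S : Type*} [CommRing S] [Finite S]

/-- **Key lemma.**  `B` an additive subgroup of a finite commutative ring `S`, stable under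
multiplication by a subring `R₀`, such that idempotent powers of elements of `B` lie in `R₀`, and
generating the unit ideal.  Then `B` contains a unit. -/
theorem exists_isUnit_mem (B : AddSubgroup S) (R₀ : Subring S)
    (hmul : ∀ a ∈ R₀, ∀ b ∈ B, a * b ∈ B)
    (hP : ∀ b ∈ B, ∀ m : ℕ, 0 < m → b ^ m * b ^ m = b ^ m → b ^ m ∈ R₀)
    {ι : Type*} (s : Finset ι) (x β : ι → S) (hβ : ∀ i ∈ s, β i ∈ B)
    (hgen : ∑ i ∈ s, x i * β i = 1) : ∃ b ∈ B, IsUnit b := by
  classical
  -- the set of partial solutions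
  let P : S × S × S → Prop := fun t =>
    t.1 * t.1 = t.1 ∧ t.1 ∈ R₀ ∧ t.2.1 ∈ B ∧ t.2.1 * t.1 = t.2.1 ∧ t.2.1 * t.2.2 = t.1
  have hne : Nonempty {t : S × S × S // P t} :=
    ⟨⟨(0, 0, 0), by simp [P, R₀.zero_mem, B.zero_mem]⟩⟩
  obtain ⟨⟨⟨e, b, b'⟩, he, heR, hbB, hbe, hbb'⟩, hmax⟩ :=
    Finite.exists_max (fun t : {t : S × S × S // P t} => Set.ncard {r : S | r * t.1.1 = r})
  have he : e * e = e := he
  have heR : e ∈ R₀ := heR
  have hbB : b ∈ B := hbB
  have hbe : b * e = b := hbe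
  have hbb' : b * b' = e := hbb'
  by_cases h1 : e = 1
  · subst h1
    exact ⟨b, hbB, IsUnit.of_mul_eq_one b' hbb'⟩
  exfalso
  -- the complementary idempotent
  obtain ⟨e', he'⟩ : ∃ e', e' = 1 - e := ⟨_, rfl⟩
  have he'i : e' * e' = e' := by rw [he']; linear_combination he
  have he'R : e' ∈ R₀ := by rw [he']; exact R₀.sub_mem R₀.one_mem heR
  have he'0 : e' ≠ 0 := fun h => h1 (by rw [he'] at h; exact (sub_eq_zero.mp h).symm)
  have hee' : e * e' = 0 := by rw [he']; linear_combination -he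
  -- some `e' β_i` is not nilpotent
  have hex : ∃ i ∈ s, ¬ IsNilpotent (e' * β i) := by
    by_contra hcon
    push Not at hcon
    have h2 : e' ∈ nilradical S := by
      have : e' = ∑ i ∈ s, x i * (e' * β i) := by
        rw [Finset.sum_congr rfl fun i _ => by rw [mul_left_comm], ← Finset.mul_sum, hgen, mul_one]
      rw [this]
      exact Ideal.sum_mem _ fun i hi => Ideal.mul_mem_left _ _ (mem_nilradical.mpr (hcon i hi))
    obtain ⟨k, hk⟩ := mem_nilradical.mp h2
    have h3 : ∀ k : ℕ, e' ^ (k + 1) = e' := by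
      intro k
      induction k with
      | zero => simp
      | succ k ih => rw [pow_succ, ih, he'i]
    rcases k with _ | k
    · rw [pow_zero] at hk
      have : e' = e' * 1 := (mul_one e').symm
      rw [hk, mul_zero] at this
      exact he'0 this
    · rw [h3 k] at hk
      exact he'0 hk
  obtain ⟨i, his, hnil⟩ := hex
  obtain ⟨β', hβ'⟩ : ∃ β', β' = e' * β i := ⟨_, rfl⟩
  rw [← hβ'] at hnil
  have hβ'B : β' ∈ B := by rw [hβ']; exact hmul e' he'R (β i) (hβ i his)
  have hβ'e' : β' * e' = β' := by rw [hβ']; linear_combination β i * he'i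
  have hβ'e : β' * e = 0 := by linear_combination -hβ'e' + β' * he'
  obtain ⟨m, hm, hidem⟩ := exists_pow_idempotent β'
  obtain ⟨m', rfl⟩ := Nat.exists_eq_succ_of_ne_zero hm.ne'
  have hfR : β' ^ (m' + 1) ∈ R₀ := hP β' hβ'B _ hm hidem
  have hf0 : β' ^ (m' + 1) ≠ 0 := fun h => hnil ⟨_, h⟩
  obtain ⟨γ, hγ⟩ : ∃ γ, γ = β' ^ m' := ⟨_, rfl⟩
  obtain ⟨f, hf⟩ : ∃ f, f = β' ^ (m' + 1) := ⟨_, rfl⟩
  rw [← hf] at hidem hfR hf0
  have hβγ : β' * γ = f := by rw [hf, hγ, pow_succ']
  have hfe : e * f = 0 := by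
    rw [← hβγ]
    linear_combination γ * hβ'e
  have hbf : b * f = 0 := by linear_combination -f * hbe + b * hfe
  -- the bigger partial solution
  have hnew : P (e + f, b + f * β', b' * e + γ * f) := by
    refine ⟨?_, R₀.add_mem heR hfR, B.add_mem hbB (hmul f hfR β' hβ'B), ?_, ?_⟩
    · show (e + f) * (e + f) = e + f
      linear_combination he + hidem + 2 * hfe
    · show (b + f * β') * (e + f) = b + f * β'
      linear_combination hbe + hbf + f * hβ'e + β' * hidem
    · show (b + f * β') * (b' * e + γ * f) = e + f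
      linear_combination e * hbb' + he + γ * hbf + f * b' * hβ'e + f * f * hβγ + f * hidem + hidem
  have hlt : Set.ncard {r : S | r * e = r} < Set.ncard {r : S | r * (e + f) = r} := by
    apply Set.ncard_lt_ncard _ (Set.toFinite _)
    refine ⟨fun r (hr : r * e = r) => ?_, fun hsub => ?_⟩
    · show r * (e + f) = r
      linear_combination hr - f * hr + r * hfe
    · have h4 : f * e = f := hsub (show f * (e + f) = f by linear_combination hidem + hfe)
      rw [mul_comm, hfe] at h4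
      exact hf0 h4.symm
  exact absurd (hmax ⟨_, hnew⟩) (not_le.mpr hlt)

end UnitFinding

/-! ### Twisted traces -/

section Twisted

variable {S : Type*} [CommRing S] (σ : S →+* S) (n : ℕ)

/-- the partial norms `∏_{i<j} σ^i u` -/
def pnorm (u : S) (j : ℕ) : S := ∏ i ∈ range j, σ^[i] u

theorem pnorm_zero (u : S) : pnorm σ u 0 = 1 := by simp [pnorm]

theorem pnorm_succ (u : S) (j : ℕ) : pnorm σ u (j + 1) = u * σ (pnorm σ u j) := by
  rw [pnorm, Finset.prod_range_succ', pnorm, map_prod, Function.iterate_zero, id, mul_comm]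
  congr 1
  exact Finset.prod_congr rfl fun i _ => Function.iterate_succ_apply' σ i u

/-- the twisted trace `∑_{j<n} (∏_{i<j} σ^i u) σ^j c` -/
def tw (u : S) : S →+ S where
  toFun c := ∑ j ∈ range n, pnorm σ u j * σ^[j] c
  map_zero' := by simp [iterate_map_zero]
  map_add' a b := by
    rw [← Finset.sum_add_distrib]
    exact Finset.sum_congr rfl fun j _ => by rw [iterate_map_add, mul_add]

theorem tw_apply (u c : S) : tw σ n u c = ∑ j ∈ range n, pnorm σ u j * σ^[j] c := rfl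

/-- the twisted trace is semilinear over the invariants -/
theorem tw_mul_of_fixed (u a c : S) (ha : σ a = a) : tw σ n u (a * c) = a * tw σ n u c := by
  have hit : ∀ j : ℕ, σ^[j] a = a := by
    intro j
    induction j with
    | zero => rfl
    | succ j ih => rw [Function.iterate_succ_apply', ih, ha]
  rw [tw_apply, tw_apply, Finset.mul_sum]
  refine Finset.sum_congr rfl fun j _ => ?_
  rw [iterate_map_mul, hit j]
  ring

/-- the twisted trace lands in the twisted invariants -/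
theorem mul_map_tw (hσ : ∀ s, σ^[n] s = s) (u : S) (hu : pnorm σ u n = 1) (c : S) :
    u * σ (tw σ n u c) = tw σ n u c := by
  have h1 : u * σ (tw σ n u c) = ∑ j ∈ range n, pnorm σ u (j + 1) * σ^[j + 1] c := by
    rw [tw_apply, map_sum, Finset.mul_sum]
    refine Finset.sum_congr rfl fun j _ => ?_
    rw [map_mul, pnorm_succ, Function.iterate_succ_apply' σ j c]
    ring
  have h2 := Finset.sum_range_succ' (fun j => pnorm σ u j * σ^[j] c) n
  have h3 := Finset.sum_range_succ (fun j => pnorm σ u j * σ^[j] c) n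
  rw [h1, tw_apply]
  have h4 : pnorm σ u 0 * σ^[0] c = c := by rw [pnorm_zero, Function.iterate_zero, id, one_mul]
  have h5 : pnorm σ u n * σ^[n] c = c := by rw [hu, hσ, one_mul]
  rw [h4] at h2
  rw [h5] at h3
  rw [h3] at h2
  exact add_right_cancel h2.symm

/-- the Galois coordinates express `1` through twisted traces -/
theorem sum_mul_tw {ι : Type*} (s : Finset ι) (x y : ι → S)
    (hxy : ∀ j < n, ∑ i ∈ s, x i * σ^[j] (y i) = if j = 0 then 1 else 0) (hn : 0 < n) (u : S) :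
    ∑ i ∈ s, x i * tw σ n u (y i) = 1 := by
  have h1 : ∑ i ∈ s, x i * tw σ n u (y i) =
      ∑ j ∈ range n, pnorm σ u j * ∑ i ∈ s, x i * σ^[j] (y i) := by
    simp only [tw_apply, Finset.mul_sum]
    rw [Finset.sum_comm]
    refine Finset.sum_congr rfl fun j _ => Finset.sum_congr rfl fun i _ => ?_
    ring
  rw [h1, Finset.sum_congr rfl fun j hj => by rw [hxy j (Finset.mem_range.mp hj)]]
  rw [Finset.sum_eq_single 0]
  · rw [if_pos rfl, mul_one, pnorm_zero]
  · intro j _ hj
    rw [if_neg hj, mul_zero]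
  · intro h
    exact absurd (Finset.mem_range.mpr hn) h

end Twisted

/-! ### Hilbert 90 and the trace-one element -/

section Main

variable {S : Type*} [CommRing S] [Finite S] (σ : S →+* S) (n : ℕ) (hσ : ∀ s, σ^[n] s = s)
  {ι : Type*} (s : Finset ι) (x y : ι → S)
  (hxy : ∀ j < n, ∑ i ∈ s, x i * σ^[j] (y i) = if j = 0 then 1 else 0) (hn : 0 < n)

include hσ hxy hn

/-- some twisted trace is a unit -/
theorem exists_isUnit_tw (u : Sˣ) (hu : pnorm σ (u : S) n = 1) :
    ∃ c : S, IsUnit (tw σ n (u : S) c) := by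
  classical
  -- the invariant subring
  let R₀ : Subring S := (RingHom.eqLocus σ (RingHom.id S))
  have hR₀ : ∀ a, a ∈ R₀ ↔ σ a = a := fun a => Iff.rfl
  obtain ⟨b, ⟨c, rfl⟩, hb⟩ := exists_isUnit_mem (tw σ n (u : S)).range R₀
    (by
      rintro a ha _ ⟨c, rfl⟩
      exact ⟨a * c, tw_mul_of_fixed σ n _ a c ((hR₀ a).mp ha)⟩)
    (by
      rintro _ ⟨c, rfl⟩ m _ hidem
      rw [hR₀]
      set b := tw σ n (u : S) c with hb
      have h1 : (u : S) * σ b = b := mul_map_tw σ n hσ _ hu c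
      -- `f = u^m σ f`
      have h2 : b ^ m = (u : S) ^ m * σ (b ^ m) := by
        rw [map_pow, ← mul_pow, h1]
      have h3 : σ (b ^ m) * σ (b ^ m) = σ (b ^ m) := by rw [← map_mul, hidem]
      have h4 : b ^ m * σ (b ^ m) = b ^ m := by
        calc b ^ m * σ (b ^ m) = (u : S) ^ m * σ (b ^ m) * σ (b ^ m) := by rw [← h2]
          _ = (u : S) ^ m * (σ (b ^ m) * σ (b ^ m)) := by ring
          _ = (u : S) ^ m * σ (b ^ m) := by rw [h3]
          _ = b ^ m := h2.symm
      have h5 : ((u⁻¹ : Sˣ) : S) ^ m * b ^ m = σ (b ^ m) := by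
        calc ((u⁻¹ : Sˣ) : S) ^ m * b ^ m
            = ((u⁻¹ : Sˣ) : S) ^ m * ((u : S) ^ m * σ (b ^ m)) := by rw [← h2]
          _ = (((u⁻¹ : Sˣ) : S) * (u : S)) ^ m * σ (b ^ m) := by rw [mul_pow]; ring
          _ = σ (b ^ m) := by rw [Units.inv_mul, one_pow, one_mul]
      have h6 : σ (b ^ m) * b ^ m = σ (b ^ m) := by
        calc σ (b ^ m) * b ^ m = (((u⁻¹ : Sˣ) : S) ^ m * b ^ m) * b ^ m := by rw [h5]
          _ = ((u⁻¹ : Sˣ) : S) ^ m * (b ^ m * b ^ m) := by ring
          _ = ((u⁻¹ : Sˣ) : S) ^ m * b ^ m := by rw [hidem]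
          _ = σ (b ^ m) := h5
      rw [mul_comm] at h6
      rw [← h6, h4])
    s x (fun i => tw σ n (u : S) (y i)) (fun i _ => ⟨y i, rfl⟩)
    (sum_mul_tw σ n s x y hxy hn _)
  exact ⟨c, hb⟩

/-- **Hilbert 90** for the unit group of a finite Galois ring extension. -/
theorem hilbert90 (u : Sˣ) (hu : pnorm σ (u : S) n = 1) :
    ∃ b : Sˣ, σ (b : S) = (u : S) * (b : S) := by
  obtain ⟨c, hc⟩ := exists_isUnit_tw σ n hσ s x y hxy hn u hu
  have h1 := mul_map_tw σ n hσ (u : S) hu c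
  refine ⟨hc.unit⁻¹, ?_⟩
  -- `u σ(w) = w` for `w = tw c` gives `σ(w⁻¹) = u w⁻¹`
  have h2 : σ ((hc.unit⁻¹ : Sˣ) : S) * σ (tw σ n (u : S) c) = 1 := by
    rw [← map_mul]
    have : ((hc.unit⁻¹ : Sˣ) : S) * tw σ n (u : S) c = 1 := by
      have := hc.unit.inv_mul
      rwa [IsUnit.unit_spec] at this
    rw [this, map_one]
  have h3 : ((hc.unit⁻¹ : Sˣ) : S) * tw σ n (u : S) c = 1 := by
    have := hc.unit.inv_mul
    rwa [IsUnit.unit_spec] at this
  calc σ ((hc.unit⁻¹ : Sˣ) : S)
      = σ ((hc.unit⁻¹ : Sˣ) : S) * (((hc.unit⁻¹ : Sˣ) : S) * tw σ n (u : S) c) := by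
        rw [h3, mul_one]
    _ = σ ((hc.unit⁻¹ : Sˣ) : S) * (((hc.unit⁻¹ : Sˣ) : S) * ((u : S) * σ (tw σ n (u : S) c))) := by
        rw [h1]
    _ = (σ ((hc.unit⁻¹ : Sˣ) : S) * σ (tw σ n (u : S) c)) * ((u : S) * ((hc.unit⁻¹ : Sˣ) : S)) := by
        ring
    _ = (u : S) * ((hc.unit⁻¹ : Sˣ) : S) := by rw [h2, one_mul]

/-- a **trace-one element** -/
theorem exists_trace_one : ∃ t : S, ∑ j ∈ range n, σ^[j] t = 1 := by
  have hp1 : ∀ j, pnorm σ (1 : S) j = 1 := by
    intro j
    rw [pnorm]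
    exact Finset.prod_eq_one fun i _ => iterate_map_one σ i
  have h6 : ∀ c', tw σ n (1 : S) c' = ∑ j ∈ range n, σ^[j] c' := by
    intro c'
    rw [tw_apply]
    exact Finset.sum_congr rfl fun j _ => by rw [hp1 j, one_mul]
  obtain ⟨c, hc⟩ := exists_isUnit_tw σ n hσ s x y hxy hn 1 (hp1 n)
  obtain ⟨w, hw⟩ : ∃ w : S, w = tw σ n (1 : S) c := ⟨_, rfl⟩
  have hcw : IsUnit w := by rw [hw]; exact hc
  obtain ⟨v, hv⟩ := hcw
  have h1 : σ w = w := by
    have := mul_map_tw σ n hσ (1 : S) (hp1 n) c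
    rw [one_mul] at this
    rw [hw]
    exact this
  -- the inverse of the invariant unit `w` is invariant
  have h3 : ((v⁻¹ : Sˣ) : S) * w = 1 := by rw [← hv]; exact v.inv_mul
  have h4 : σ ((v⁻¹ : Sˣ) : S) * w = 1 := by
    rw [← h1, ← map_mul, h3, map_one]
  have h2 : σ ((v⁻¹ : Sˣ) : S) = ((v⁻¹ : Sˣ) : S) := by
    calc σ ((v⁻¹ : Sˣ) : S)
        = σ ((v⁻¹ : Sˣ) : S) * (((v⁻¹ : Sˣ) : S) * w) := by rw [h3, mul_one]
      _ = (σ ((v⁻¹ : Sˣ) : S) * w) * ((v⁻¹ : Sˣ) : S) := by ring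
      _ = ((v⁻¹ : Sˣ) : S) := by rw [h4, one_mul]
  refine ⟨((v⁻¹ : Sˣ) : S) * c, ?_⟩
  rw [← h6, tw_mul_of_fixed σ n (1 : S) _ c h2, ← hw, h3]

end Main

/-! ### The index form -/

section Index

open Fermat.Agent.CFT.Local.NormIndex

variable {S : Type*} [CommRing S] (σ : S →+* S) (n : ℕ)

/-- the action of `σ` on `Additive Sˣ` -/
def sigmaS : Additive Sˣ →+ Additive Sˣ := MonoidHom.toAdditive (Units.map (σ : S →* S))

theorem coe_units_map_iterate (j : ℕ) (u : Sˣ) :
    (((Units.map (σ : S →* S))^[j] u : Sˣ) : S) = σ^[j] (u : S) := by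
  induction j with
  | zero => rfl
  | succ j ih =>
    rw [Function.iterate_succ_apply', Function.iterate_succ_apply', ← ih]
    rfl

theorem sigmaS_iterate (hσ : ∀ s, σ^[n] s = s) (a : Additive Sˣ) : (sigmaS σ)^[n] a = a := by
  apply toAdditive_iterate_fix
  intro u
  exact Units.ext (by rw [coe_units_map_iterate, hσ])

theorem nrm_sigmaS_eq_zero_iff (a : Additive Sˣ) :
    nrm (sigmaS σ) n a = 0 ↔ pnorm σ ((Additive.toMul a : Sˣ) : S) n = 1 := by
  rw [sigmaS, nrm_toAdditive, pnorm]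
  constructor
  · intro h
    have h1 : (∏ j ∈ range n, (Units.map (σ : S →* S))^[j] (Additive.toMul a)) = 1 := h
    have h2 := congrArg Units.val h1
    rw [Units.coe_prod, Units.val_one] at h2
    rw [← h2]
    exact Finset.prod_congr rfl fun j _ => (coe_units_map_iterate σ j _).symm
  · intro h
    have h1 : (∏ j ∈ range n, (Units.map (σ : S →* S))^[j] (Additive.toMul a)) = 1 := by
      apply Units.ext
      rw [Units.coe_prod, Units.val_one, ← h]
      exact Finset.prod_congr rfl fun j _ => coe_units_map_iterate σ j _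
    rw [h1]
    rfl

variable [Finite S] (hσ : ∀ s, σ^[n] s = s)
  {ι : Type*} (s : Finset ι) (x y : ι → S)
  (hxy : ∀ j < n, ∑ i ∈ s, x i * σ^[j] (y i) = if j = 0 then 1 else 0) (hn : 0 < n)

include hσ hxy hn

/-- **`Ĥ¹(Sˣ) = 0`** -/
theorem v1On_units : V1On (sigmaS σ) n ⊤ := by
  intro a _ ha
  rw [nrm_sigmaS_eq_zero_iff] at ha
  obtain ⟨b, hb⟩ := hilbert90 σ n hσ s x y hxy hn (Additive.toMul a) ha
  refine ⟨Additive.ofMul b, trivial, ?_⟩
  have h1 : Units.map (σ : S →* S) b / b = Additive.toMul a := by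
    rw [div_eq_iff_eq_mul]
    exact Units.ext hb
  exact congrArg Additive.ofMul h1

/-- **`Ĥ⁰(Sˣ) = 0`** (by counting, from `Ĥ¹ = 0`) -/
theorem v0On_units : V0On (sigmaS σ) n ⊤ := by
  have h1 : idx (nrm (sigmaS σ) n) (delta (sigmaS σ)) = 1 := by
    rw [idx_eq_one_iff]
    intro a ha
    obtain ⟨b, -, hb⟩ := v1On_units σ n hσ s x y hxy hn a trivial ha
    exact ⟨b, by rw [delta_apply, hb]⟩
  have h2 := (idx_comm_of_finite (delta (sigmaS σ)) (nrm (sigmaS σ) n)
    (delta_nrm_eq_zero _ n (sigmaS_iterate σ n hσ))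
    (nrm_delta_eq_zero _ n (sigmaS_iterate σ n hσ))).1
  rw [h1, idx_eq_one_iff] at h2
  intro a _ ha
  obtain ⟨b, hb⟩ := h2 a (by rw [delta_apply, ha, sub_self])
  exact ⟨b, trivial, hb⟩

end Index

end Fermat.Agent.CFT.Semilocal.Hilbert90
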