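import Mathlib
import Fermat.Agent.CFT.Semilocal.UnitsHerbrand
import Fermat.Agent.CFT.Semilocal.Hilbert90
import Fermat.Agent.CFT.Semilocal.GaloisCoords

/-!
# PROJECT C, slice C1c (semilocal units), part 4b: `Ĥ⁰ = Ĥ¹ = 0` for `U_q(L)` at unramified `q`

`L/K` cyclic extension of number fields with generator `g` of order `k + 1`, `q` a rational prime
not dividing `discr L`.  Then the norm `U_q(L) → U_q(K)` is surjective and `H¹(G, U_q(L)) = 0`,
in the form `V0On (sigmaU q g) (k+1) ⊤ ∧ V1On (sigmaU q g) (k+1) ⊤` on helper11's `intUnits L q`.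

Proof (semilocal, no decomposition into local fields): the discriminant gives Galois coordinates
in `R = intRing L q` (`GaloisCoords`), hence Hilbert 90 and a trace-one element for the finite
ring `R / q` (`Hilbert90`); the trace-one element makes `1 + qR` cohomologically trivial
(`UnitLattice` with `M = R`); conclude with the extension lemma.
-/

set_option autoImplicit false

open scoped NumberField
open Finset NumberField
open Fermat.Agent.CFT.Idele Fermat.Agent.CFT.Local Fermat.Agent.CFT.Herbrand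
  Fermat.Agent.CFT.Local.CyclicVanish

noncomputable section

namespace Fermat.Agent.CFT.Semilocal

/-! ### A general identity for `Ĥ⁻¹` with an element of given trace -/

section TraceFormula

variable {R : Type*} [CommRing R] (σ : R →+* R) (n : ℕ)

/-- the partial traces `∑_{i<j} σ^i x` -/
def ptrace (x : R) (j : ℕ) : R := ∑ i ∈ range j, σ^[i] x

theorem ptrace_zero (x : R) : ptrace σ x 0 = 0 := by simp [ptrace]

theorem ptrace_succ (x : R) (j : ℕ) : ptrace σ x (j + 1) = x + σ (ptrace σ x j) := by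
  rw [ptrace, Finset.sum_range_succ', ptrace, map_sum, Function.iterate_zero, id, add_comm]
  congr 1
  exact Finset.sum_congr rfl fun i _ => Function.iterate_succ_apply' σ i x

/-- `σ Y - Y = t Tr(x) - x Tr(t)` for `Y = ∑_{j<n} σ^j(t) ∑_{i<j} σ^i x` -/
theorem map_sub_self_trace_formula (hσ : ∀ r, σ^[n] r = r) (t x : R) :
    σ (∑ j ∈ range n, σ^[j] t * ptrace σ x j) - ∑ j ∈ range n, σ^[j] t * ptrace σ x j =
      t * ptrace σ x n - x * ptrace σ t n := by
  have h1 : σ (∑ j ∈ range n, σ^[j] t * ptrace σ x j) =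
      ∑ j ∈ range n, σ^[j + 1] t * ptrace σ x (j + 1) - x * ∑ j ∈ range n, σ^[j + 1] t := by
    rw [map_sum, Finset.mul_sum, ← Finset.sum_sub_distrib]
    refine Finset.sum_congr rfl fun j _ => ?_
    rw [map_mul, ptrace_succ, Function.iterate_succ_apply' σ j t]
    ring
  have h2 := Finset.sum_range_succ' (fun j => σ^[j] t * ptrace σ x j) n
  have h3 := Finset.sum_range_succ (fun j => σ^[j] t * ptrace σ x j) n
  have h4 := Finset.sum_range_succ' (fun j => σ^[j] t) n
  have h5 := Finset.sum_range_succ (fun j => σ^[j] t) n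
  rw [ptrace_zero, mul_zero, add_zero] at h2
  rw [hσ] at h3 h5
  rw [Function.iterate_zero, id] at h4
  have e1 : ∑ j ∈ range n, σ^[j + 1] t * ptrace σ x (j + 1) =
      ∑ j ∈ range n, σ^[j] t * ptrace σ x j + t * ptrace σ x n := by
    rw [← h2]
    exact h3
  have e2 : ∑ j ∈ range n, σ^[j + 1] t = ptrace σ t n := by
    have : ∑ j ∈ range n, σ^[j + 1] t + t = ∑ j ∈ range n, σ^[j] t + t := by rw [← h4, h5]
    exact add_right_cancel this
  rw [h1, e1, e2]
  ring

end TraceFormula

/-! ### Galois coordinates in `intRing L q` -/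

section Coords

variable {K L : Type*} [Field K] [Field L] [NumberField K] [NumberField L] [Algebra K L]
  (q : Nat.Primes) (g : L ≃ₐ[K] L) (k : ℕ)

theorem restrictScalars_pow_eq_one_iff (j : ℕ) :
    (g.restrictScalars ℚ) ^ j = 1 ↔ g ^ j = 1 := by
  have h : ∀ j : ℕ, (g.restrictScalars ℚ) ^ j = (g ^ j).restrictScalars ℚ := by
    intro j
    induction j with
    | zero => rfl
    | succ j ih => rw [pow_succ, pow_succ, ih]; rfl
  rw [h]
  constructor
  · intro h1
    ext z
    exact congrArg (fun f : L ≃ₐ[ℚ] L => f z) h1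
  · intro h1
    rw [h1]
    rfl

/-- the first family of Galois coordinates: the integral basis -/
def coordX (i : Module.Free.ChooseBasisIndex ℤ (𝓞 L)) : intRing L q :=
  intElem q (integralBasis L i) (isIntegral_integralBasis L i)

/-- the second family of Galois coordinates: `discr L⁻¹` times the integral dual basis -/
def coordY (u : (ℤ_[(q : ℕ)])ˣ) (i : Module.Free.ChooseBasisIndex ℤ (𝓞 L)) : intRing L q :=
  ((u⁻¹ : (ℤ_[(q : ℕ)])ˣ) : ℤ_[(q : ℕ)]) • intElem q (dualInt L i) (isIntegral_dualInt L i)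

/-- **Galois coordinates** in `intRing L q` for `q ∤ discr L`. -/
theorem sum_coordX_mul_iterate_coordY (hk : orderOf g = k + 1) (u : (ℤ_[(q : ℕ)])ˣ)
    (hu : (u : ℤ_[(q : ℕ)]) = ((discr L : ℤ) : ℤ_[(q : ℕ)])) (j : ℕ) (hj : j < k + 1) :
    ∑ i, coordX q i * (autInt q (g.restrictScalars ℚ))^[j] (coordY q u i) =
      if j = 0 then (1 : intRing L q) else 0 := by
  classical
  apply Subtype.ext
  rw [AddSubmonoidClass.coe_finsetSum]
  have h1 : ∀ i, ((coordX q i * (autInt q (g.restrictScalars ℚ))^[j] (coordY q u i) :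
      intRing L q) : Loc L q) =
      inclZ L q ((u⁻¹ : (ℤ_[(q : ℕ)])ˣ) : ℤ_[(q : ℕ)]) *
        inclL L q (integralBasis L i * ((g.restrictScalars ℚ) ^ j) (dualInt L i)) := by
    intro i
    rw [autInt_iterate, Subring.coe_mul, coe_autInt, coordY, coe_smul_intRing, map_mul,
      coe_intElem, Loc.aut_inclL, coordX, coe_intElem, map_mul]
    have : Loc.aut L q ((g.restrictScalars ℚ) ^ j)
        (inclZ L q ((u⁻¹ : (ℤ_[(q : ℕ)])ˣ) : ℤ_[(q : ℕ)])) =
        inclZ L q ((u⁻¹ : (ℤ_[(q : ℕ)])ˣ) : ℤ_[(q : ℕ)]) := Loc.aut_inclQ q _ _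
    rw [this]
    ring
  rw [Finset.sum_congr rfl fun i _ => h1 i, ← Finset.mul_sum, ← map_sum,
    sum_integralBasis_mul_map_dualInt]
  by_cases hj0 : j = 0
  · subst hj0
    rw [if_pos (pow_zero _), if_pos rfl]
    have : inclL L q ((discr L : ℤ) : L) = inclZ L q (u : ℤ_[(q : ℕ)]) := by
      rw [hu, map_intCast, map_intCast]
    rw [this, ← map_mul, Units.inv_mul, map_one]
    rfl
  · have hne : (g.restrictScalars ℚ) ^ j ≠ 1 := by
      rw [Ne, restrictScalars_pow_eq_one_iff]
      intro h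
      have := orderOf_dvd_of_pow_eq_one h
      rw [hk] at this
      exact absurd (Nat.le_of_dvd (Nat.pos_of_ne_zero hj0) this) (not_le.mpr hj)
    rw [if_neg hne, if_neg hj0, map_zero, mul_zero]
    rfl

end Coords

/-! ### The residue ring `intRing L q / q` -/

section Residue

variable {L : Type*} [Field L] [NumberField L] (q : Nat.Primes)

/-- the ideal `q · intRing L q` -/
def qIdeal : Ideal (intRing L q) := Ideal.span {qInt L q}

/-- the residue ring `intRing L q / q` -/
abbrev ResRing : Type _ := intRing L q ⧸ qIdeal (L := L) q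

instance finite_resRing : Finite (ResRing (L := L) q) := by
  have := finite_quotient_qInt_pow L q 1
  rw [pow_one] at this
  exact this

theorem mem_qIdeal_iff (r : intRing L q) : r ∈ qIdeal (L := L) q ↔ ∃ r', r = qInt L q * r' := by
  rw [qIdeal, Ideal.mem_span_singleton']
  constructor
  · rintro ⟨a, ha⟩
    exact ⟨a, by rw [← ha, mul_comm]⟩
  · rintro ⟨a, ha⟩
    exact ⟨a, by rw [ha, mul_comm]⟩

theorem autInt_qInt (τ : L ≃ₐ[ℚ] L) : autInt q τ (qInt L q) = qInt L q :=
  Subtype.ext (by rw [coe_autInt, coe_qInt, map_natCast])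

theorem qIdeal_le_comap (τ : L ≃ₐ[ℚ] L) :
    qIdeal (L := L) q ≤ (qIdeal (L := L) q).comap (autInt q τ) := by
  intro r hr
  rw [Ideal.mem_comap]
  obtain ⟨r', rfl⟩ := (mem_qIdeal_iff q r).mp hr
  rw [map_mul, autInt_qInt]
  exact (mem_qIdeal_iff q _).mpr ⟨_, rfl⟩

/-- the induced endomorphism of the residue ring -/
def autRes (τ : L ≃ₐ[ℚ] L) : ResRing (L := L) q →+* ResRing (L := L) q :=
  Ideal.quotientMap (qIdeal (L := L) q) (autInt q τ) (qIdeal_le_comap q τ)

theorem autRes_mk (τ : L ≃ₐ[ℚ] L) (r : intRing L q) :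
    autRes q τ (Ideal.Quotient.mk _ r) = Ideal.Quotient.mk _ (autInt q τ r) :=
  Ideal.quotientMap_mk

theorem autRes_iterate_mk (τ : L ≃ₐ[ℚ] L) (j : ℕ) (r : intRing L q) :
    (autRes q τ)^[j] (Ideal.Quotient.mk _ r) = Ideal.Quotient.mk _ ((autInt q τ)^[j] r) := by
  induction j with
  | zero => rfl
  | succ j ih => rw [Function.iterate_succ_apply', Function.iterate_succ_apply', ih, autRes_mk]

/-- units of the residue ring lift to units -/
theorem exists_unit_lift (v : (ResRing (L := L) q)ˣ) :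
    ∃ u : (intRing L q)ˣ, Ideal.Quotient.mk (qIdeal (L := L) q) (u : intRing L q) = v := by
  obtain ⟨r, hr⟩ := Ideal.Quotient.mk_surjective (v : ResRing (L := L) q)
  obtain ⟨r', hr'⟩ := Ideal.Quotient.mk_surjective ((v⁻¹ : (ResRing (L := L) q)ˣ) :
    ResRing (L := L) q)
  have h1 : r * r' - 1 ∈ qIdeal (L := L) q := by
    rw [← Ideal.Quotient.eq, map_mul, hr, hr', map_one, Units.mul_inv]
  obtain ⟨z, hz⟩ := (mem_qIdeal_iff q _).mp h1
  have h2 : IsUnit (r * r') := by
    have : r * r' = 1 + qInt L q * z := by rw [← hz]; ring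
    rw [this]
    exact isUnit_one_add_qInt_mul L q z
  have h3 : IsUnit r := isUnit_of_mul_isUnit_left h2
  exact ⟨h3.unit, by rw [IsUnit.unit_spec, hr]⟩

end Residue

/-! ### The main theorem -/

section Main

variable {K L : Type*} [Field K] [Field L] [NumberField K] [NumberField L] [Algebra K L]
  (q : Nat.Primes) (g : L ≃ₐ[K] L) (k : ℕ)

theorem autInt_iterate_eq_self (hk : orderOf g = k + 1) (r : intRing L q) :
    (autInt q (g.restrictScalars ℚ))^[k + 1] r = r := by
  have h1 : (g.restrictScalars ℚ) ^ (k + 1) = 1 := by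
    rw [restrictScalars_pow_eq_one_iff, ← hk]
    exact pow_orderOf_eq_one g
  rw [autInt_iterate, h1, autInt_one]

theorem autInt_iterate_of_fixed (τ : L ≃ₐ[ℚ] L) (x : intRing L q) (hx : autInt q τ x = x)
    (j : ℕ) : (autInt q τ)^[j] x = x := by
  induction j with
  | zero => rfl
  | succ j ih => rw [Function.iterate_succ_apply', ih, hx]

/-- the unit lattice `M = R` attached to an element whose trace is `≡ 1 mod q` -/
def traceUnitLattice (hk : orderOf g = k + 1) (t₀ r₀ : intRing L q)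
    (ht : ∑ j ∈ range (k + 1), (autInt q (g.restrictScalars ℚ))^[j] t₀ = 1 + qInt L q * r₀) :
    UnitLattice (intRing L q) where
  σ := autInt q (g.restrictScalars ℚ)
  n := k + 1
  hσ := autInt_iterate_eq_self q g k hk
  ε := qInt L q
  hσε := autInt_qInt q _
  hε := fun x hx => qInt_mul_eq_zero q x hx
  hunit := isUnit_one_add_qInt_mul L q
  M := ⊤
  hσM := fun _ _ => trivial
  hεM := fun _ _ => trivial
  c := 0
  hc := fun _ => trivial
  sepR := sep_intRing L q
  compl := fun x _ => by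
    obtain ⟨y, hy⟩ := compl_intRing L q x
    exact ⟨y, trivial, fun i => by
      obtain ⟨m, hm⟩ := hy i
      exact ⟨m, trivial, hm⟩⟩
  a0 := fun x _ hx => by
    refine ⟨x * t₀, trivial, -(x * r₀), trivial, ?_⟩
    have h1 : ∑ j ∈ range (k + 1), (autInt q (g.restrictScalars ℚ))^[j] (x * t₀) =
        x * ∑ j ∈ range (k + 1), (autInt q (g.restrictScalars ℚ))^[j] t₀ := by
      rw [Finset.mul_sum]
      refine Finset.sum_congr rfl fun j _ => ?_
      rw [iterate_map_mul, autInt_iterate_of_fixed q _ x hx j]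
    rw [h1, ht]
    ring
  a1 := fun x _ hx => by
    obtain ⟨μ, -, hμ⟩ := hx
    refine ⟨-∑ j ∈ range (k + 1), (autInt q (g.restrictScalars ℚ))^[j] t₀ *
      ptrace (autInt q (g.restrictScalars ℚ)) x j, trivial, t₀ * μ - x * r₀, trivial, ?_⟩
    have h1 := map_sub_self_trace_formula (autInt q (g.restrictScalars ℚ)) (k + 1)
      (autInt_iterate_eq_self q g k hk) t₀ x
    have h2 : ptrace (autInt q (g.restrictScalars ℚ)) x (k + 1) = qInt L q * μ := hμ
    have h3 : ptrace (autInt q (g.restrictScalars ℚ)) t₀ (k + 1) = 1 + qInt L q * r₀ := ht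
    rw [h2, h3] at h1
    rw [map_neg]
    linear_combination h1

/-- reduction of units modulo `q` -/
def redUnits : Additive (intRing L q)ˣ →+ Additive (ResRing (L := L) q)ˣ :=
  MonoidHom.toAdditive (Units.map ((Ideal.Quotient.mk (qIdeal (L := L) q) :
    intRing L q →+* ResRing (L := L) q) : intRing L q →* ResRing (L := L) q))

theorem redUnits_surjective : Function.Surjective (redUnits (L := L) q) := by
  intro v
  obtain ⟨u, hu⟩ := exists_unit_lift q (Additive.toMul v)
  exact ⟨Additive.ofMul u, congrArg Additive.ofMul (Units.ext hu)⟩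

theorem autRes_iterate_eq_self (hk : orderOf g = k + 1) (s : ResRing (L := L) q) :
    (autRes q (g.restrictScalars ℚ))^[k + 1] s = s := by
  obtain ⟨r, rfl⟩ := Ideal.Quotient.mk_surjective s
  rw [autRes_iterate_mk, autInt_iterate_eq_self q g k hk]

theorem sum_mk_coordX_mul_iterate_coordY (hk : orderOf g = k + 1) (u : (ℤ_[(q : ℕ)])ˣ)
    (hu : (u : ℤ_[(q : ℕ)]) = ((discr L : ℤ) : ℤ_[(q : ℕ)])) (j : ℕ) (hj : j < k + 1) :
    ∑ i, Ideal.Quotient.mk (qIdeal (L := L) q) (coordX q i) *
      (autRes q (g.restrictScalars ℚ))^[j] (Ideal.Quotient.mk (qIdeal (L := L) q)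
        (coordY q u i)) = if j = 0 then 1 else 0 := by
  have := congrArg (Ideal.Quotient.mk (qIdeal (L := L) q))
    (sum_coordX_mul_iterate_coordY q g k hk u hu j hj)
  rw [map_sum] at this
  rw [Finset.sum_congr rfl fun i _ => by rw [autRes_iterate_mk, ← map_mul], this]
  split_ifs
  · exact map_one _
  · exact map_zero _

/-- an integral element of trace `≡ 1 mod q` -/
theorem exists_trace_eq_one_add (hk : orderOf g = k + 1) (u : (ℤ_[(q : ℕ)])ˣ)
    (hu : (u : ℤ_[(q : ℕ)]) = ((discr L : ℤ) : ℤ_[(q : ℕ)])) :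
    ∃ t₀ r₀ : intRing L q, ∑ j ∈ range (k + 1), (autInt q (g.restrictScalars ℚ))^[j] t₀ =
      1 + qInt L q * r₀ := by
  classical
  obtain ⟨tbar, htbar⟩ := Hilbert90.exists_trace_one (autRes q (g.restrictScalars ℚ)) (k + 1)
    (autRes_iterate_eq_self q g k hk) Finset.univ _ _
    (sum_mk_coordX_mul_iterate_coordY q g k hk u hu) (Nat.succ_pos k)
  obtain ⟨t₀, rfl⟩ := Ideal.Quotient.mk_surjective tbar
  have h1 : ∑ j ∈ range (k + 1), (autInt q (g.restrictScalars ℚ))^[j] t₀ - 1 ∈
      qIdeal (L := L) q := by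
    rw [← Ideal.Quotient.eq, map_sum, map_one, ← htbar]
    exact Finset.sum_congr rfl fun j _ => (autRes_iterate_mk q _ j t₀).symm
  obtain ⟨r₀, hr₀⟩ := (mem_qIdeal_iff q _).mp h1
  exact ⟨t₀, r₀, sub_eq_iff_eq_add'.mp hr₀⟩

theorem redUnits_eq_zero (t₀ r₀ : intRing L q) (hk : orderOf g = k + 1)
    (ht : ∑ j ∈ range (k + 1), (autInt q (g.restrictScalars ℚ))^[j] t₀ = 1 + qInt L q * r₀)
    (a : Additive (intRing L q)ˣ) (ha : redUnits (L := L) q a = 0) :
    a ∈ (traceUnitLattice q g k hk t₀ r₀ ht).F 0 := by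
  have h2 : Ideal.Quotient.mk (qIdeal (L := L) q) ((Additive.toMul a : (intRing L q)ˣ) :
      intRing L q) = 1 := by
    have := congrArg (fun v : Additive (ResRing (L := L) q)ˣ =>
      ((Additive.toMul v : (ResRing (L := L) q)ˣ) : ResRing (L := L) q)) ha
    exact this
  have h3 : ((Additive.toMul a : (intRing L q)ˣ) : intRing L q) - 1 ∈ qIdeal (L := L) q := by
    rw [← Ideal.Quotient.eq, h2, map_one]
  obtain ⟨z, hz⟩ := (mem_qIdeal_iff q _).mp h3
  refine ⟨z, trivial, ?_⟩
  show ((Additive.toMul a : (intRing L q)ˣ) : intRing L q) = 1 + qInt L q ^ (0 + (0 + 1)) * z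
  rw [zero_add, zero_add, pow_one, ← hz]
  exact (add_sub_cancel _ _).symm

theorem redUnits_sigmaR (a : Additive (intRing L q)ˣ) :
    redUnits (L := L) q (sigmaR q g a) =
      Hilbert90.sigmaS (autRes q (g.restrictScalars ℚ)) (redUnits (L := L) q a) := by
  apply congrArg Additive.ofMul
  apply Units.ext
  show Ideal.Quotient.mk _ (autInt q (g.restrictScalars ℚ) _) = autRes q _ (Ideal.Quotient.mk _ _)
  rw [autRes_mk]

/-- **`Ĥ⁰ = Ĥ¹ = 0` for the units of `intRing L q`**, `q ∤ discr L`. -/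
theorem v0On_v1On_sigmaR (hk : orderOf g = k + 1) (hq : ¬ (((q : ℕ) : ℤ) ∣ discr L)) :
    V0On (sigmaR q g) (k + 1) ⊤ ∧ V1On (sigmaR q g) (k + 1) ⊤ := by
  classical
  obtain ⟨u, hu⟩ := isUnit_intCast_padicInt q hq
  have hV1'' := Hilbert90.v1On_units (autRes q (g.restrictScalars ℚ)) (k + 1)
    (autRes_iterate_eq_self q g k hk) Finset.univ _ _
    (sum_mk_coordX_mul_iterate_coordY q g k hk u hu) (Nat.succ_pos k)
  have hV0'' := Hilbert90.v0On_units (autRes q (g.restrictScalars ℚ)) (k + 1)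
    (autRes_iterate_eq_self q g k hk) Finset.univ _ _
    (sum_mk_coordX_mul_iterate_coordY q g k hk u hu) (Nat.succ_pos k)
  obtain ⟨t₀, r₀, ht⟩ := exists_trace_eq_one_add q g k hk u hu
  have hσn : ∀ a, (sigmaR q g)^[k + 1] a = a :=
    (traceUnitLattice q g k hk t₀ r₀ ht).hσA
  have hV0' : V0On (sigmaR q g) (k + 1) ((traceUnitLattice q g k hk t₀ r₀ ht).F 0) :=
    (traceUnitLattice q g k hk t₀ r₀ ht).v0On
  have hV1' : V1On (sigmaR q g) (k + 1) ((traceUnitLattice q g k hk t₀ r₀ ht).F 0) :=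
    (traceUnitLattice q g k hk t₀ r₀ ht).v1On
  exact ⟨v0On_top_of_extension _ _ (k + 1) hσn _ (redUnits (L := L) q)
      (redUnits_surjective q) (redUnits_eq_zero q g k t₀ r₀ hk ht) (redUnits_sigmaR q g)
      hV0' hV0'',
    v1On_top_of_extension _ _ (k + 1) hσn _ (redUnits (L := L) q)
      (redUnits_surjective q) (redUnits_eq_zero q g k t₀ r₀ hk ht) (redUnits_sigmaR q g)
      hV1' hV1''⟩

/-- **`Ĥ⁰ = Ĥ¹ = 0` for `U_q(L)`**: for a cyclic extension `L/K` of number fields with generator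
`g` of order `k + 1` and a rational prime `q ∤ discr L`, every `g`-invariant element of
`intUnits L q` is a norm, and every element of norm one is of the form `g b / b`. -/
theorem v0On_v1On_sigmaU (hk : orderOf g = k + 1) (hq : ¬ (((q : ℕ) : ℤ) ∣ discr L)) :
    V0On (sigmaU q g) (k + 1) ⊤ ∧ V1On (sigmaU q g) (k + 1) ⊤ := by
  obtain ⟨h0, h1⟩ := v0On_v1On_sigmaR q g k hk hq
  exact ⟨v0On_top_congr (MulEquiv.toAdditive (unitsEquiv (L := L) q)) _ _
      (unitsEquiv_sigmaR q g) (k + 1) h0,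
    v1On_top_congr (MulEquiv.toAdditive (unitsEquiv (L := L) q)) _ _
      (unitsEquiv_sigmaR q g) (k + 1) h1⟩

end Main

end Fermat.Agent.CFT.Semilocal
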